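import Fermat.Agent.LT.Whit.GalAct
import Fermat.Agent.LT2.Loc.Chi
import Fermat.Agent.LT2.Whit.Local

/-!
# Field automorphisms acting on forms of deep level
-/

set_option autoImplicit false

noncomputable section

open Matrix IsDedekindDomain NumberField Filter MeasureTheory WithZero
open FermatAgent.LT FermatAgent.LT.Whit
open FermatAgent.LT.Periodic (ivec)
open FermatAgent.LT.Theta.LocalChar
open scoped MatrixGroups

namespace FermatAgent.LT2.Whit

variable {L : Type*} [Field L] [NumberField L] [IsTotallyComplex L] (τ : L ≃+* L)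
  {f : InfPts L → adelGrp L → ℂ}

omit [IsTotallyComplex L] in
/-- Deep levels move along an automorphism. -/
lemma adelMap_mem_deep (T : Finset (HeightOneSpectrum (𝓞 L))) (m : ℕ) {u : adelGrp L}
    (hu : u ∈ levelGrp (deepLvl (T.map (placeMap τ).symm.toEmbedding) m)) :
    adelMap τ u ∈ levelGrp (deepLvl T m) := by
  intro w
  obtain ⟨v, rfl⟩ := (placeMap τ).surjective w
  rw [adelMap_apply]
  have := hu v
  by_cases hv : placeMap τ v ∈ T
  · rw [deepLvl_loc_of_mem (T := T) hv]
    rw [deepLvl_loc_of_mem (by simpa using hv)] at this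
    exact (Loc.gmap_mem_locKN_iff τ v).2 this
  · rw [deepLvl_loc_of_notMem hv]
    rw [deepLvl_loc_of_notMem (by simpa using hv)] at this
    exact g2Map_mem_locK τ this

omit [IsTotallyComplex L] in
/-- The transported form is a form. -/
theorem IsForm.gal (hf : IsForm f) : IsForm (FermatAgent.LT.Whit.gal τ f) where
  glob_smul γ y a := by
    show f _ _ = f _ _
    rw [infMap_smul, map_mul, adelMap_glob, hf.glob_smul]
  smooth := by
    obtain ⟨T, m, h⟩ := hf.smooth
    refine ⟨T.map (placeMap τ).symm.toEmbedding, m, fun y a u hu => ?_⟩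
    show f _ _ = f _ _
    rw [map_mul, h _ _ _ (adelMap_mem_deep τ T m hu)]
  cont a := (hf.cont _).comp (continuous_infMap τ)
  bdd := hf.bdd.imp fun B hB y a => hB _ _

/-- The Whittaker function of the transported form. -/
theorem IsForm.W_gal (hf : IsForm f) (y : InfPts L) (a : adelGrp L) :
    W (FermatAgent.LT.Whit.gal τ f) y a =
      W f (LevelHom.infMap (τ : L →+* L) y) (adelMap τ a) := by
  set g := FermatAgent.LT.Whit.gal τ f
  set d := per g a
  have hper : IsPer f (adelMap τ a) (τ (d : L)) := fun β z => by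
    obtain ⟨z', rfl⟩ : ∃ z', LevelHom.infMap (τ : L →+* L) z' = z :=
      ⟨
        (fun w => twistPt (τ : L →+* L) ((Equiv.ofBijective _ (bijective_comap_inf τ)).symm w)
          (z ((Equiv.ofBijective _ (bijective_comap_inf τ)).symm w))), funext fun w => by
        show twistPt _ w (twistPt _ _ (z _)) = z w
        rw [show (Equiv.ofBijective _ (bijective_comap_inf τ)).symm (w.comap (τ : L →+* L)) = w from
          (Equiv.ofBijective _ (bijective_comap_inf τ)).symm_apply_apply w]
        exact twistPt_twistPt_symm _ _ _⟩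
    have h := (hf.gal τ).isPer_per a ((RingOfIntegers.mapRingEquiv τ).symm β) z'
    change f (LevelHom.infMap _ (transl _ z')) _ = f (LevelHom.infMap _ z') _ at h
    rwa [infMap_transl, infLin_infEmb, map_mul,
      show τ (((RingOfIntegers.mapRingEquiv τ).symm β : 𝓞 L) : L) = (β : L) from
        congrArg (fun z : 𝓞 L => (z : L)) ((RingOfIntegers.mapRingEquiv τ).apply_symm_apply β)] at h
  have hone : ∀ β : 𝓞 L, psiI (infEmb L (τ (d : L) * (β : L))) = 1 := fun β => by
    have h := LT2.Whit.psiI_per g a ((RingOfIntegers.mapRingEquiv τ).symm β)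
    rwa [← psiI_infLin τ, infLin_infEmb, map_mul,
      show τ (((RingOfIntegers.mapRingEquiv τ).symm β : 𝓞 L) : L) = (β : L) from
        congrArg (fun z : 𝓞 L => (z : L)) ((RingOfIntegers.mapRingEquiv τ).apply_symm_apply β)] at h
  set d' : Lˣ := Units.mk0 (τ (d : L)) (by simp) with hd'
  rw [hf.W_eq (d := d') hper hone]
  obtain ⟨B, hB⟩ := hf.bdd
  set G : InfV L → ℂ := fun v =>
    f (transl v (LevelHom.infMap (τ : L →+* L) y)) (adelMap τ a) * psiI (-(infEmb L (1 : L) * v))
  have h1 : W g y a = ∫ c in cube (Idx L), G (((latA d).trans (infEquiv τ)) c) := by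
    refine integral_congr_ae (ae_of_all _ fun c => ?_)
    show f (LevelHom.infMap _ (transl (latA d c) y)) _ * psiI (-(infEmb L 1 * latA d c)) =
      G (infLin τ (latA d c))
    simp only [G, infMap_transl, map_one, one_mul, ← map_neg, psiI_infLin]
  rw [h1]
  refine mean_eq _ (latA d') (continuous_integrand hf.cont 1 _ _) (B := B)
    (fun v => by rw [norm_mul, norm_psiI, mul_one]; exact hB _ _) ?_ ?_
  · intro v n
    obtain ⟨β, hβ⟩ := latA_ivec d n
    have e : ((latA d).trans (infEquiv τ)) (ivec n) =
        infEmb L (τ (d : L) * ((RingOfIntegers.mapRingEquiv τ β : 𝓞 L) : L)) := by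
      show infLin τ (latA d (ivec n)) = _
      rw [hβ, infLin_infEmb, map_mul]
      rfl
    show f (transl (v + _) _) _ * psiI (-(infEmb L 1 * (v + _))) = _
    rw [e, add_comm, transl_add, hper, map_one, one_mul, neg_add, psiI_add]
    have h' :=
      psiI_neg_mul_self (infEmb L (τ (d : L) * ((RingOfIntegers.mapRingEquiv τ β : 𝓞 L) : L)))
    rw [hone, mul_one] at h'
    rw [h', one_mul]
    simp only [G, map_one, one_mul]
  · intro v n
    show f (transl (v + _) _) _ * psiI (-(infEmb L 1 * (v + _))) = _
    rw [add_comm, transl_add, IsPer.periodic_latA (d := d') hper, mul_add, neg_add, psiI_add,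
      psiI_latA (fun β => by rw [one_mul]; exact hone β), one_mul]

variable {v : HeightOneSpectrum (𝓞 L)}

omit [IsTotallyComplex L]

/-- Invariance of the transported form. -/
lemma FixedAt.gal (hv : FixedAt f (placeMap τ v) (locK (placeMap τ v))) :
    FixedAt (FermatAgent.LT.Whit.gal τ f) v (locK v) := fun g hg y a => by
  show f _ _ = f _ _
  rw [map_mul, adelMap_atV, hv _ (g2Map_mem_locK τ hg)]

/-- The Hecke operators and the automorphism. -/
theorem heckeT_gal (hv : FixedAt f (placeMap τ v) (locK (placeMap τ v))) :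
    heckeT v (FermatAgent.LT.Whit.gal τ f) =
      FermatAgent.LT.Whit.gal τ (heckeT (placeMap τ v) f) := by
  funext y a
  obtain ⟨σ, hσ, hinj, hsurj⟩ := exists_residues_bij τ v
  have hϖ : (placeMap τ v).valuation L ((mapU τ (unifU v) : Lˣ) : L) = exp (-1 : ℤ) :=
    (valuation_placeMap τ v _).trans (v_unifU v)
  simp only [heckeT, FermatAgent.LT.Whit.gal, map_mul, adelMap_atV, nbr, nbrLast,
    g2Map_nB, g2Map_dG]
  congr 1
  · refine Finset.sum_bij (fun t _ => σ t) (fun t ht => (hσ t ht).1)
      (fun t ht t' ht' e => hinj t ht t' ht' e)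
      (fun s hs => (hsurj s hs).imp fun t ht => ⟨ht.1, ht.2⟩) fun t ht => ?_
    simp only [← map_mul]
    exact hv.nbr_congr (hσ t ht).2 hϖ _ _
  · have hi : mapU τ (unifU v)⁻¹ = (mapU τ (unifU v))⁻¹ := map_inv (Units.map (τ : L →* L)) _
    rw [hi]
    exact hv.nbrLast_congr hϖ _ _

end FermatAgent.LT2.Whit
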