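import Mathlib
import Fermat.Agent.LT2.Glue.Base
import Fermat.Agent.LT2.Loc.Conj
import Fermat.Agent.LT2.Loc.Chi

/-!
# Deep levels at the bad places

For given bad places the depths and the characters: at a place with one place above the support of
the character is deep enough for the gluing, at a split place the levels correspond.
-/

set_option autoImplicit false

noncomputable section

open Matrix IsDedekindDomain NumberField WithZero
open scoped MatrixGroups

namespace FermatAgent.LT2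

open FermatAgent.LT
open FermatAgent.LT.Whit (cnd)
open FermatAgent.LT (valuation_placeMap)
open FermatAgent.LT2.Loc (OneAbove gam d2 d3 exists_rep locKN_le_gam gam_le_locK map_mem_gam_iff
  Descent)
open FermatAgent.LT2.Whit (locKN locCN)

variable {K L : Type*} [Field K] [NumberField K] [Field L] [NumberField L] [Algebra K L]

namespace Setup

variable (C : Setup K L)

/-- A place below splits iff the generator moves a place above. -/
lemma isSplit_iff (w : HeightOneSpectrum (𝓞 L)) :
    C.IsSplit (C.b w) ↔ placeMap C.τ w ≠ w :=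
  ⟨fun h => h w rfl, C.isSplit_of_moved⟩

/-- A fixed place is the only one above. -/
lemma oneAbove {w : HeightOneSpectrum (𝓞 L)} (hw : placeMap C.τ w = w) :
    OneAbove C.τ (C.b w) w where
  twist := C.twist
  val_tau x := by
    conv_lhs => rw [← hw]
    exact valuation_placeMap C.τ w x
  pair := C.pair w

/-- The ramification divides three. -/
lemma exists_exp (w : HeightOneSpectrum (𝓞 L)) :
    ∃ e : ℕ, e ∣ 3 ∧ ∀ x, w.valuation L (algebraMap K L x) = (C.b w).valuation K x ^ e := by
  by_cases hw : placeMap C.τ w = w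
  · exact (C.oneAbove hw).exists_exp
  · exact ⟨1, one_dvd 3, fun x => by rw [C.val_of_moved hw, pow_one]⟩

end Setup

/-- The depths and the parameters of the characters at the bad places. -/
structure Par (C : Setup K L) (n : ℕ) where
  /-- the depth of the support -/
  a₀ : HeightOneSpectrum (𝓞 K) → ℕ
  /-- the depth of the character -/
  m : HeightOneSpectrum (𝓞 K) → ℕ
  /-- the parameter of the character -/
  ξ : HeightOneSpectrum (𝓞 K) → K
  m_ge : ∀ v, n ≤ m v
  m_pos : ∀ v, 0 < m v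
  ξ_val : ∀ w, C.b w ∈ C.S →
    w.valuation L (algebraMap K L (ξ (C.b w))) = exp (cnd w + 2 * m (C.b w))
  supp_ge : ∀ w, C.b w ∈ C.S → placeMap C.τ w = w → 3 * d3 w ≤ a₀ (C.b w)
  supp_v : ∀ w, C.b w ∈ C.S → placeMap C.τ w = w → ∀ q : G2 K,
    g2Map (algebraMap K L) q ∈ gam w (a₀ (C.b w)) → q ∈ gam (C.b w) (2 * d3 (C.b w))
  inner : ∀ w, C.b w ∈ C.S → placeMap C.τ w = w → ∀ q : G2 K,
    g2Map (algebraMap K L) q ∈ gam w (a₀ (C.b w) - 2 * d3 w) → q ∈ gam (C.b w) 0
  supp_m : ∀ w, C.b w ∈ C.S → placeMap C.τ w = w → a₀ (C.b w) + 1 + 2 * d2 w ≤ m (C.b w)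
  glue : ∀ w, C.b w ∈ C.S → placeMap C.τ w = w →
    ∀ (D : Descent C.τ (C.b w) w) [Fintype (gam w D.c ⧸ D.UL.subgroupOf (gam w D.c))],
      a₀ (C.b w) ≤ D.a₀ → ∀ (δ : GL (Fin 2) K) (γ : GL (Fin 2) L),
        (ProjGenLinGroup.mk δ : G2 K) ≠ 1 → IsRep C.τ δ γ →
          ∃ A, D.Glued (ProjGenLinGroup.mk γ) (ProjGenLinGroup.mk δ) (torus δ) A ∧
            D.Explicit δ A

/-- Parameters of every depth. -/
theorem exists_par (C : Setup K L) (n : ℕ) : Nonempty (Par C n) := by
  classical
  choose w₀ hw₀ using C.exists_over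
  have key : ∀ v, ∃ (a m : ℕ) (ξ : K), n ≤ m ∧ 0 < m ∧
      (∀ w, C.b w = v → w.valuation L (algebraMap K L ξ) = exp (cnd w + 2 * m)) ∧
      ∀ w, C.b w = v → placeMap C.τ w = w → 3 * d3 w ≤ a ∧
        (∀ q : G2 K, g2Map (algebraMap K L) q ∈ gam w a → q ∈ gam (C.b w) (2 * d3 (C.b w))) ∧
        (∀ q : G2 K, g2Map (algebraMap K L) q ∈ gam w (a - 2 * d3 w) → q ∈ gam (C.b w) 0) ∧
        a + 1 + 2 * d2 w ≤ m ∧
        ∀ (D : Descent C.τ (C.b w) w) [Fintype (gam w D.c ⧸ D.UL.subgroupOf (gam w D.c))],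
          a ≤ D.a₀ → ∀ (δ : GL (Fin 2) K) (γ : GL (Fin 2) L),
            (ProjGenLinGroup.mk δ : G2 K) ≠ 1 → IsRep C.τ δ γ →
              ∃ A, D.Glued (ProjGenLinGroup.mk γ) (ProjGenLinGroup.mk δ) (torus δ) A ∧
            D.Explicit δ A := by
    intro v
    obtain ⟨w, rfl⟩ : ∃ w, C.b w = v := ⟨w₀ v, hw₀ v⟩
    choose! N₁ hN₁ using fun hw : placeMap C.τ w = w =>
      (C.oneAbove hw).exists_incl_bound (2 * d3 (C.b w))
    choose! N₀ hN₀ using fun hw : placeMap C.τ w = w => (C.oneAbove hw).exists_incl_bound 0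
    choose! n₀ hn₀ using fun hw : placeMap C.τ w = w => (C.oneAbove hw).exists_depth
    set a := 3 * d3 w + N₁ + (N₀ + 2 * d3 w) + n₀ with ha
    set M := max n (a + 1 + 2 * d2 w) + 1
    set m := M + ((cnd w - M) % 3).toNat
    have hm3 : (3 : ℤ) ∣ cnd w + 2 * m := by
      simp only [m, Nat.cast_add,
        Int.toNat_of_nonneg (Int.emod_nonneg _ (by norm_num : (3 : ℤ) ≠ 0))]
      omega
    obtain ⟨e, he, hx⟩ := C.exists_exp w
    obtain ⟨c, hc⟩ : (e : ℤ) ∣ cnd w + 2 * m := (Int.natCast_dvd_natCast.mpr he).trans hm3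
    obtain ⟨p, hp⟩ := Theta.LocalChar.exists_exp_shift (L := K) (C.b w) c
    have hval : w.valuation L (algebraMap K L p) = exp (cnd w + 2 * m) := by
      rw [hx, hp, ← WithZero.exp_nsmul, nsmul_eq_mul, hc]
    refine ⟨a, m, p, (le_max_left _ _).trans ((Nat.le_succ _).trans (Nat.le_add_right _ _)),
      Nat.succ_pos _ |>.trans_le (Nat.le_add_right _ _), fun w' hw' => ?_, fun w' hw' hfix => ?_⟩
    · have step : ∀ u, u.valuation L (algebraMap K L p) = exp (cnd u + 2 * m) →
          (placeMap C.τ u).valuation L (algebraMap K L p) =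
            exp (cnd (placeMap C.τ u) + 2 * m) := fun u hu => by
        rw [← C.twist.fix p, valuation_placeMap, LT.Whit.cnd_placeMap]
        exact hu
      rcases C.orbit hw' with e | e | e <;> subst e
      exacts [hval, step _ hval, step _ (step _ hval)]
    · obtain rfl : w = w' := C.eq_of_fixed hfix hw'.symm
      exact ⟨by omega, fun q hq => hN₁ hfix q (Loc.gam_anti (by omega) hq),
        fun q hq => hN₀ hfix q (Loc.gam_anti (by omega) hq), by omega,
        fun D _ hD => hn₀ hfix D (by omega)⟩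
  choose a m ξ h1 h2 h3 h4 using key
  exact ⟨⟨a, m, ξ, h1, h2, fun w _ => h3 _ w rfl, fun w _ hw => (h4 _ w rfl hw).1,
    fun w _ hw => (h4 _ w rfl hw).2.1, fun w _ hw => (h4 _ w rfl hw).2.2.1,
    fun w _ hw => (h4 _ w rfl hw).2.2.2.1, fun w _ hw => (h4 _ w rfl hw).2.2.2.2⟩⟩

namespace Par

variable {C : Setup K L} {n : ℕ} (P : Par C n)

/-- The depth of the level above. -/
abbrev N (v : HeightOneSpectrum (𝓞 K)) : ℕ := 2 * P.m v

open Classical in
/-- The depth of the level below. -/
def NK (v : HeightOneSpectrum (𝓞 K)) : ℕ :=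
  if C.IsSplit v then P.N v else P.a₀ v + P.N v + 2 * d3 v

open Classical in
/-- The level above. -/
def UL : Level L where
  loc w := if C.b w ∈ C.S then gam w (P.N (C.b w)) else locK w
  le w := by split_ifs; exacts [gam_le_locK, le_rfl]
  eventually_eq := by
    refine ((C.S.finite_toSet.biUnion fun v _ => C.finite_fib v).subset fun w hw => ?_)
    by_contra h
    simp only [Finset.mem_coe, Set.mem_iUnion, Set.mem_ofPred_eq, not_exists] at h
    exact hw (if_neg fun hb => h _ hb rfl)

open Classical in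
/-- The level below. -/
def UK : Level K where
  loc v := if v ∈ C.S then gam v (P.NK v) else locK v
  le v := by split_ifs; exacts [gam_le_locK, le_rfl]
  eventually_eq := (C.S.finite_toSet.subset fun v hv => by
    by_contra h
    exact hv (if_neg (by simpa using h)))

/-- The level above a bad place. -/
lemma UL_mem {w : HeightOneSpectrum (𝓞 L)} (hw : C.b w ∈ C.S) :
    P.UL.loc w = gam w (P.N (C.b w)) := if_pos hw

/-- The level above a good place is maximal. -/
lemma UL_notMem {w : HeightOneSpectrum (𝓞 L)} (hw : C.b w ∉ C.S) : P.UL.loc w = locK w := if_neg hw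

/-- The level at a bad place of the base. -/
lemma UK_mem {v : HeightOneSpectrum (𝓞 K)} (hv : v ∈ C.S) : P.UK.loc v = gam v (P.NK v) := if_pos hv

lemma UK_notMem {v : HeightOneSpectrum (𝓞 K)} (hv : v ∉ C.S) : P.UK.loc v = locK v := if_neg hv

lemma N_le_NK (v : HeightOneSpectrum (𝓞 K)) : P.N v ≤ P.NK v := by
  unfold NK; split_ifs <;> omega

/-- The context of the parameters. -/
def ctx : Ctx K L where
  toSetup := C
  UL := P.UL
  UK := P.UK
  stable w g := by
    obtain ⟨u, rfl⟩ := (placeMap C.τ).surjective w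
    rw [Equiv.symm_apply_apply]
    by_cases hu : C.b u ∈ C.S
    · rw [P.UL_mem hu, P.UL_mem (by rwa [C.b_next]), C.b_next,
        map_mem_gam_iff (fun x => valuation_placeMap C.τ u x)]
    · rw [P.UL_notMem hu, P.UL_notMem (by rwa [C.b_next]),
        (placePair_placeMap C.τ u).g2Map_mem_locK_iff]
  congrL w := by
    by_cases hw : C.b w ∈ C.S
    · refine ⟨P.N (C.b w) + 2 * d2 w, fun g hg hs => ?_⟩
      rw [P.UL_mem hw]
      exact locKN_le_gam (m := P.N (C.b w) + 2 * d2 w + 1) (by omega)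
        ⟨g, ⟨hg, fun i j => (hs i j).trans_eq (by push_cast; rfl)⟩, rfl⟩
    · exact ⟨0, fun g hg _ => by rw [P.UL_notMem hw]; exact ⟨g, hg, rfl⟩⟩
  congrK v := by
    by_cases hv : v ∈ C.S
    · refine ⟨P.NK v + 2 * d2 v, fun g hg hs => ?_⟩
      rw [P.UK_mem hv]
      exact locKN_le_gam (m := P.NK v + 2 * d2 v + 1) (by omega)
        ⟨g, ⟨hg, fun i j => (hs i j).trans_eq (by push_cast; rfl)⟩, rfl⟩
    · exact ⟨0, fun g hg _ => by rw [P.UK_notMem hv]; exact ⟨g, hg, rfl⟩⟩
  UL_else w hw := P.UL_notMem hw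
  UK_else v hv := P.UK_notMem hv
  incl_mem' w g hg := by
    by_cases hw : C.b w ∈ C.S
    · rw [P.UK_mem hw] at hg
      rw [P.UL_mem hw]
      have hg' := Loc.gam_anti (P.N_le_NK _) hg
      by_cases hfix : placeMap C.τ w = w
      · exact (C.oneAbove hfix).incl_mem_gam hg'
      · exact (map_mem_gam_iff (C.val_of_moved hfix)).mpr hg'
    · rw [P.UK_notMem hw] at hg
      rw [P.UL_notMem hw]
      exact ((C.pair w).g2Map_mem_locK_iff g).mpr hg
  mem_of_incl' w hmov g hg := by
    by_cases hw : C.b w ∈ C.S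
    · rw [P.UL_mem hw, map_mem_gam_iff (C.val_of_moved hmov)] at hg
      rw [P.UK_mem hw, NK, if_pos ((C.isSplit_iff w).mpr hmov)]
      exact hg
    · rw [P.UL_notMem hw] at hg
      rw [P.UK_notMem hw]
      exact ((C.pair w).g2Map_mem_locK_iff g).mp hg

end Par

end FermatAgent.LT2
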