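import Fermat.Agent.LT2.Bad.Uniq

/-!
# Averaging a form against deep characters

At a place the average over a congruence subgroup against its character is typed; it keeps the
Whittaker value at the normalised point when the elements with vanishing quotient fix the form.
-/

set_option autoImplicit false

noncomputable section

open Matrix IsDedekindDomain NumberField Filter MeasureTheory WithZero
open FermatAgent.LT FermatAgent.LT.Whit
open FermatAgent.LT2.Loc (ChOn chW rat rat_mk gam)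
open scoped MatrixGroups ContDiff

namespace FermatAgent.LT2.Whit

variable {L : Type*} [Field L] [NumberField L]

/-- The elements of the congruence subgroup are translations by their quotient times elements with
vanishing quotient. -/
lemma rat_nB_mul {v : HeightOneSpectrum (𝓞 L)} {m : ℕ} (hm : 0 < m) {q : G2 L}
    (hq : q ∈ locKN v m) :
    (nB (-rat q) : G2 L) * q ∈ locKN v m ∧ rat ((nB (-rat q) : G2 L) * q) = 0 := by
  refine ⟨mul_mem (nB_mem_locKN ?_) hq, ?_⟩
  · rw [Valuation.map_neg]; exact Loc.val_rat_le hm hq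
  · obtain ⟨g, ⟨-, hg⟩, rfl⟩ := hq
    have h11 := Loc.diag_ne_zero hm hg 1
    rw [nB, ← map_mul, rat_mk, rat_mk]
    simp [Matrix.mul_apply, Fin.sum_univ_two]
    field_simp
    ring_nf
    simp

variable {f : InfPts L → adelGrp L → ℂ}

/-- Invariance at every place under a level gives invariance under the level. -/
theorem IsForm.right_of_level (hf : IsForm f) {U : Level L} (hU : ∀ v, FixedAt f v (U.loc v))
    {u : adelGrp L} (hu : u ∈ levelGrp U) (y : InfPts L) (a : adelGrp L) : f y (a * u) = f y a :=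
  hf.right_of_locK (fun v => U.le v (hu v)) (fun v => hU v _ (hu v)) y a

lemma isRadial_sum_rt {ι : Type*} (hf : IsForm f) (hr : IsRadial f) (s : Finset ι) (r : ι → ℂ)
    (h : ι → adelGrp L) : IsRadial (∑ i ∈ s, r i • rt (h i) f) := by
  classical
  induction s using Finset.induction_on with
  | empty =>
    intro w k _ _ y a
    simp [kint]
  | insert i s hi ih =>
    have hs : IsForm (∑ j ∈ s, r j • rt (h j) f) :=
      IsForm.sum s _ fun j _ => (hf.rt (h j)).smul _
    rw [Finset.sum_insert hi, show r i • rt (h i) f + ∑ j ∈ s, r j • rt (h j) f =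
      r i • rt (h i) f - (-1 : ℂ) • ∑ j ∈ s, r j • rt (h j) f by simp]
    exact IsRadial.sub' ((hf.rt (h i)).smul _)
      (IsRadial.smul' (IsRadial.rt hr (h i)) _) (hs.smul _) (IsRadial.smul' ih _)

lemma heckeT_sum_rt {ι : Type*} {v : HeightOneSpectrum (𝓞 L)} {c : ℂ} (hc : heckeT v f = c • f)
    (s : Finset ι) (r : ι → ℂ) (h : ι → adelGrp L) (hv : ∀ i ∈ s, (h i).1 v = 1) :
    heckeT v (∑ i ∈ s, r i • rt (h i) f) = c • ∑ i ∈ s, r i • rt (h i) f := by
  funext y a
  simp only [heckeT, Finset.sum_apply, Pi.smul_apply, smul_eq_mul]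
  rw [Finset.sum_comm, ← Finset.sum_add_distrib, Finset.mul_sum]
  refine Finset.sum_congr rfl fun i hi => ?_
  have e := congrFun (congrFun (heckeT_rt hc (hv i hi)) y) a
  simp only [heckeT, Pi.smul_apply, smul_eq_mul] at e
  rw [← Finset.mul_sum]
  linear_combination r i * e

lemma fixedAt_sum_rt {ι : Type*} {v : HeightOneSpectrum (𝓞 L)} {H : Subgroup (G2 L)}
    (hf : FixedAt f v H) (s : Finset ι) (r : ι → ℂ) (h : ι → adelGrp L)
    (hv : ∀ i ∈ s, (h i).1 v = 1) : FixedAt (∑ i ∈ s, r i • rt (h i) f) v H := by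
  intro g hg y a
  simp only [Finset.sum_apply, Pi.smul_apply, smul_eq_mul]
  exact Finset.sum_congr rfl fun i hi => by rw [hf.rt (hv i hi) g hg]

lemma chiAt_sum_rt {ι : Type*} {v : HeightOneSpectrum (𝓞 L)} {k : ℕ} {x : L}
    (hf : ChiAt f v k x) (s : Finset ι) (r : ι → ℂ) (h : ι → adelGrp L)
    (hv : ∀ i ∈ s, (h i).1 v = 1) : ChiAt (∑ i ∈ s, r i • rt (h i) f) v k x := by
  intro g hg y a
  simp only [Finset.sum_apply, Pi.smul_apply, smul_eq_mul, rt_apply, Finset.mul_sum]
  refine Finset.sum_congr rfl fun i hi => ?_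
  rw [mul_assoc a, atV_mul_of_eq_one (hv i hi), ← mul_assoc a, hf g hg]
  ring

/-- What is required of a place before averaging. -/
structure PreAt (f : InfPts L → adelGrp L → ℂ) (v : HeightOneSpectrum (𝓞 L)) (m : ℕ) : Prop where
  rat_zero : ∀ g ∈ locKN v m, rat g = 0 → ∀ (y : InfPts L) (a : adelGrp L),
    f y (a * atV v g) = f y a
  deep : ∃ N, 2 * m ≤ N ∧ FixedAt f v (gam v N)

lemma preAt_sum_rt {ι : Type*} {v : HeightOneSpectrum (𝓞 L)} {m : ℕ} (hf : PreAt f v m)
    (s : Finset ι) (r : ι → ℂ) (h : ι → adelGrp L) (hv : ∀ i ∈ s, (h i).1 v = 1) :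
    PreAt (∑ i ∈ s, r i • rt (h i) f) v m := by
  refine ⟨fun g hg hg0 y a => ?_, hf.deep.imp fun N hN => ⟨hN.1, fixedAt_sum_rt hN.2 s r h hv⟩⟩
  simp only [Finset.sum_apply, Pi.smul_apply, smul_eq_mul, rt_apply]
  refine Finset.sum_congr rfl fun i hi => ?_
  rw [mul_assoc, atV_mul_of_eq_one (hv i hi), ← mul_assoc, hf.rat_zero g hg hg0]

variable [IsTotallyComplex L]

section Avg

variable {v : HeightOneSpectrum (𝓞 L)} {H V : Subgroup (G2 L)} [Fintype (H ⧸ V.subgroupOf H)]

/-- The average against a character. -/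
def avg (χ : G2 L → ℂ) (f : InfPts L → adelGrp L → ℂ) (v : HeightOneSpectrum (𝓞 L))
    (H V : Subgroup (G2 L)) [Fintype (H ⧸ V.subgroupOf H)] : InfPts L → adelGrp L → ℂ :=
  ∑ q : H ⧸ V.subgroupOf H,
    ((V.relIndex H : ℂ)⁻¹ * χ ((q.out : G2 L)⁻¹)) • rt (atV v (q.out : G2 L)) f

omit [IsTotallyComplex L] in
/-- The average transforms by the character. -/
theorem avg_chi {χ : G2 L → ℂ} (hc : ChOn H V χ) (hV : FixedAt f v V) {g : G2 L} (hg : g ∈ H)
    (y : InfPts L) (a : adelGrp L) :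
    avg χ f v H V y (a * atV v g) = χ g * avg χ f v H V y a := by
  classical
  simp only [avg, Finset.sum_apply, Pi.smul_apply, smul_eq_mul, rt_apply, Finset.mul_sum]
  set i : ℂ := (V.relIndex H : ℂ)⁻¹
  let e : H ⧸ V.subgroupOf H ≃ H ⧸ V.subgroupOf H := MulAction.toPerm (⟨g, hg⟩ : H)
  rw [← e.sum_comp fun q => χ g * (i * χ ((q.out : G2 L)⁻¹) * f y (a * atV v (q.out : G2 L)))]
  refine Finset.sum_congr rfl fun q _ => ?_
  obtain ⟨u, hu⟩ : ∃ u : V.subgroupOf H, (e q).out = (⟨g, hg⟩ : H) * q.out * u := by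
    refine QuotientGroup.mk_out_eq_mul (V.subgroupOf H) ((⟨g, hg⟩ : H) * q.out) |>.imp
      fun u hu => ?_
    rw [← hu]
    congr 1
    show (⟨g, hg⟩ : H) • q = _
    conv_lhs => rw [← QuotientGroup.out_eq' q]
    rw [MulAction.Quotient.smul_mk, smul_eq_mul]
  have hu' : ((u : H) : G2 L) ∈ V := Subgroup.mem_subgroupOf.1 u.2
  simp only [hu, Subgroup.coe_mul]
  rw [map_mul (atV v) _ ((u : H) : G2 L), ← mul_assoc a, hV _ hu',
    map_mul (atV v) g, ← mul_assoc a, show (g * (q.out : G2 L) * ((u : H) : G2 L))⁻¹ =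
      ((u : H) : G2 L)⁻¹ * ((q.out : G2 L)⁻¹ * g⁻¹) by group,
    hc.map_mul _ (inv_mem (hc.le hu')) _ (mul_mem (inv_mem q.out.2) (inv_mem hg)),
    hc.map_one' _ (inv_mem hu'), one_mul, hc.map_mul _ (inv_mem q.out.2) _ (inv_mem hg),
    hc.map_inv hg]
  linear_combination -(i * χ ((q.out : G2 L)⁻¹) *
    f y (a * atV v g * atV v (q.out : G2 L))) * hc.norm g hg

variable {m : ℕ} {x : Lˣ}

/-- The average keeps the value at a point with the parameter as component. -/
theorem W_avg (hf : IsForm f) (hm : 0 < m) (hc : ChOn (locKN v m) V (chW v (x : L)))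
    [Fintype (locKN v m ⧸ V.subgroupOf (locKN v m))] (hpre : PreAt f v m) {a : adelGrp L}
    (ha : a.1 v = dG x) (y : InfPts L) :
    W (avg (chW v (x : L)) f v (locKN v m) V) y a = W f y a := by
  classical
  have hq : ∀ q ∈ locKN v m, W f y (a * atV v q) = chW v (x : L) q * W f y a := by
    intro q hq
    obtain ⟨hg, hg0⟩ := rat_nB_mul hm hq
    rw [show q = nB (rat q) * (nB (-rat q) * q) by rw [← mul_assoc, ← nB_add, add_neg_cancel,
      nB_zero, one_mul], map_mul, ← mul_assoc, hf.W_right (fun y b => hpre.rat_zero _ hg hg0 y b),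
      hf.W_dG_mul_nB ha, ← mul_assoc, ← nB_add, add_neg_cancel, nB_zero, one_mul, chW]
  rw [avg, W_sum _ _ (fun q _ => (hf.rt _).smul _)]
  rw [Finset.sum_congr rfl (g := fun _ => ((V.relIndex (locKN v m) : ℂ))⁻¹ * W f y a) fun q _ => by
    rw [(hf.rt _).W_smul, hf.W_rt, hq _ q.out.2, hc.map_inv q.out.2]
    linear_combination ((V.relIndex (locKN v m) : ℂ))⁻¹ * W f y a * hc.norm _ q.out.2]
  rw [Finset.sum_const, Finset.card_univ, nsmul_eq_mul,
    show Fintype.card (locKN v m ⧸ V.subgroupOf (locKN v m)) = V.relIndex (locKN v m) from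
      Nat.card_eq_fintype_card.symm,
    mul_inv_cancel_left₀ (by exact_mod_cast hc.fin)]

end Avg

/-- **Averaging.** A form ready at every place of a set becomes typed there, keeping the value at
the normalised point. -/
theorem exists_typed {T : Finset (HeightOneSpectrum (𝓞 L))}
    {ξ : HeightOneSpectrum (𝓞 L) → Lˣ} {m : HeightOneSpectrum (𝓞 L) → ℕ}
    (hfin : ∀ v ∈ T, ∀ N, (gam v N).relIndex (locKN v (m v)) ≠ 0)
    (hξ : ∀ v ∈ T, v.valuation L (ξ v : L) = exp (cnd v + 2 * m v)) (hm : ∀ v ∈ T, 0 < m v)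
    (hf : IsForm f) (hr : IsRadial f) (hK : ∀ v ∉ T, FixedAt f v (locK v))
    (c : HeightOneSpectrum (𝓞 L) → ℂ) (hH : ∀ v ∉ T, heckeT v f = c v • f)
    (hpre : ∀ v ∈ T, PreAt f v (m v)) :
    ∃ F : InfPts L → adelGrp L → ℂ, IsForm F ∧ IsRadial F ∧
      (∀ v ∉ T, FixedAt F v (locK v)) ∧ (∀ v ∉ T, heckeT v F = c v • F) ∧
      (∀ v ∈ T, ChiAt F v (m v) (ξ v : L)) ∧
      W F baseY (stdPt T ξ) = W f baseY (stdPt T ξ) := by
  classical
  suffices key : ∀ T' : Finset (HeightOneSpectrum (𝓞 L)), T' ⊆ T →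
      ∃ F : InfPts L → adelGrp L → ℂ, IsForm F ∧ IsRadial F ∧
      (∀ v ∉ T, FixedAt F v (locK v)) ∧ (∀ v ∉ T, heckeT v F = c v • F) ∧
      (∀ v ∈ T', ChiAt F v (m v) (ξ v : L)) ∧ (∀ v ∈ T, v ∉ T' → PreAt F v (m v)) ∧
      W F baseY (stdPt T ξ) = W f baseY (stdPt T ξ) by
    obtain ⟨F, h1, h2, h3, h4, h5, -, h7⟩ := key T subset_rfl
    exact ⟨F, h1, h2, h3, h4, h5, h7⟩
  intro T'
  induction T' using Finset.induction_on with
  | empty =>
    exact fun _ => ⟨f, hf, hr, hK, hH, fun v hv => absurd hv (Finset.notMem_empty v),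
      fun v hv _ => hpre v hv, rfl⟩
  | insert v T' hvT' ih =>
    intro hsub
    have hv : v ∈ T := hsub (Finset.mem_insert_self v T')
    obtain ⟨F, h1, h2, h3, h4, h5, h6, h7⟩ := ih fun w hw => hsub (Finset.mem_insert_of_mem hw)
    obtain ⟨N, hN, hV⟩ := (h6 v hv hvT').deep
    have hc : ChOn (locKN v (m v)) (gam v N) (chW v (ξ v : L)) :=
      Loc.chOn_chW (hm v hv) (hξ v hv).le hN (hfin v hv N)
    have : ((gam v N).subgroupOf (locKN v (m v))).FiniteIndex := ⟨hc.fin⟩
    have := Fintype.ofFinite (locKN v (m v) ⧸ (gam v N).subgroupOf (locKN v (m v)))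
    have hone : ∀ w, w ≠ v → ∀ q ∈ (Finset.univ :
        Finset (locKN v (m v) ⧸ (gam v N).subgroupOf (locKN v (m v)))),
        (atV v (q.out : G2 L)).1 w = 1 := fun w hw q _ => atV_ne hw _
    have hne : ∀ {w}, w ∉ T → w ≠ v := fun hw e => hw (e ▸ hv)
    refine ⟨avg (chW v (ξ v : L)) F v (locKN v (m v)) (gam v N),
      IsForm.sum _ _ fun q _ => (h1.rt _).smul _, isRadial_sum_rt h1 h2 _ _ _,
      fun w hw => fixedAt_sum_rt (h3 w hw) _ _ _ (hone w (hne hw)),
      fun w hw => heckeT_sum_rt (h4 w hw) _ _ _ (hone w (hne hw)), fun w hw => ?_,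
      fun w hw hwT => ?_, ?_⟩
    · by_cases hwv : w = v
      · subst hwv
        exact fun g hg y a => avg_chi hc hV hg y a
      · exact chiAt_sum_rt (h5 w ((Finset.mem_insert.1 hw).resolve_left hwv)) _ _ _ (hone w hwv)
    · have hwv : w ≠ v := fun e => hwT (e ▸ Finset.mem_insert_self v T')
      exact preAt_sum_rt (h6 w hw fun h => hwT (Finset.mem_insert_of_mem h)) _ _ _ (hone w hwv)
    · rw [W_avg h1 (hm v hv) hc (h6 v hv hvT') (stdPt_mem hv), h7]

end FermatAgent.LT2.Whit
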