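import Mathlib
import Fermat.Agent.LT2.Bad.Levels
import Fermat.Agent.LT2.Glue.Base

/-!
# The kernels at the bad places

Above, the idempotent of a character of a deep congruence subgroup; below, its restriction at the
split places and the descended kernel at the places with one place above.
-/

set_option autoImplicit false

noncomputable section

open Matrix IsDedekindDomain NumberField WithZero
open scoped MatrixGroups ComplexConjugate

namespace FermatAgent.LT2

open FermatAgent.LT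
open FermatAgent.LT.TwistCtx (Fam Pt incl ft actFam)
open FermatAgent.LT.Whit (cnd)
open FermatAgent.LT (valuation_placeMap)
open FermatAgent.LT2.Loc (OneAbove gam d2 d3 gam_anti gam_le_locK map_mem_gam_iff
  Descent ChOn eFun chW BiInv)
open FermatAgent.LT2.Whit (locKN locCN locKN_le)

variable {K L : Type*} [Field K] [NumberField K] [Field L] [NumberField L] [Algebra K L]

/-- Deep subgroups have finite index in compact subgroups. -/
lemma relIndex_gam_ne_zero (v : HeightOneSpectrum (𝓞 L)) (N : ℕ) {H : Subgroup (G2 L)}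
    (hH : H ≤ locK v) : (gam v N).relIndex H ≠ 0 := fun h =>
  relIndex_ne_zero_of_small v (N + 2 * d2 v) (H := gam v N)
    (fun g hg hs => Loc.locKN_le_gam (m := N + 2 * d2 v + 1) (by omega)
      ⟨g, ⟨hg, fun i j => (hs i j).trans_eq (by push_cast; rfl)⟩, rfl⟩)
    (Subgroup.relIndex_eq_zero_of_le_right hH h)

namespace Par

variable {C : Setup K L} {n : ℕ} (P : Par C n)

/-- The parameter seen above. -/
abbrev xiL (w : HeightOneSpectrum (𝓞 L)) : L := algebraMap K L (P.ξ (C.b w))

/-- The character above. -/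
abbrev chiL (w : HeightOneSpectrum (𝓞 L)) : G2 L → ℂ := chW w (P.xiL w)

/-- The subgroup of the character above. -/
abbrev subL (w : HeightOneSpectrum (𝓞 L)) : Subgroup (G2 L) := locKN w (P.m (C.b w))

/-- The character above is a character of its subgroup trivial on the level. -/
lemma chL {w : HeightOneSpectrum (𝓞 L)} (hw : C.b w ∈ C.S) :
    ChOn (P.subL w) (P.ctx.UL.loc w) (P.chiL w) := by
  show ChOn _ (P.UL.loc w) _
  rw [P.UL_mem hw]
  exact Loc.chOn_chW (P.m_pos _) (P.ξ_val w hw).le le_rfl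
    (relIndex_gam_ne_zero w _ (locKN_le w _))

lemma chiL_incl_next (u : HeightOneSpectrum (𝓞 L)) (g : G2 K) :
    P.chiL (placeMap C.τ u) (g2Map (algebraMap K L) g) = P.chiL u (g2Map (algebraMap K L) g) := by
  unfold Par.chiL Par.xiL
  rw [C.b_next]
  have h := Loc.chW_gmap C.τ u (algebraMap K L (P.ξ (C.b u))) (g2Map (algebraMap K L) g)
  rwa [C.twist.fix, C.twist.g2Map_incl] at h

lemma subL_incl_next (u : HeightOneSpectrum (𝓞 L)) (g : G2 K) :
    g2Map (algebraMap K L) g ∈ P.subL (placeMap C.τ u) ↔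
      g2Map (algebraMap K L) g ∈ P.subL u := by
  unfold Par.subL
  rw [C.b_next]
  have h := Loc.gmap_mem_locKN_iff (m := P.m (C.b u)) C.τ u (q := g2Map (algebraMap K L) g)
  rwa [C.twist.g2Map_incl] at h

lemma incl_const {u u' : HeightOneSpectrum (𝓞 L)} (h : C.b u' = C.b u) (g : G2 K) :
    P.chiL u' (g2Map (algebraMap K L) g) = P.chiL u (g2Map (algebraMap K L) g) ∧
      (g2Map (algebraMap K L) g ∈ P.subL u' ↔ g2Map (algebraMap K L) g ∈ P.subL u) := by
  rcases C.orbit h with e | e | e <;> subst e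
  · exact ⟨rfl, Iff.rfl⟩
  · exact ⟨P.chiL_incl_next u g, P.subL_incl_next u g⟩
  · exact ⟨(P.chiL_incl_next _ g).trans (P.chiL_incl_next u g),
      (P.subL_incl_next _ g).trans (P.subL_incl_next u g)⟩

/-- A place above. -/
def top (v : HeightOneSpectrum (𝓞 K)) : HeightOneSpectrum (𝓞 L) := (C.exists_over v).choose

lemma b_top (v : HeightOneSpectrum (𝓞 K)) : C.b (top (C := C) v) = v :=
  (C.exists_over v).choose_spec

/-- The subgroup of the character at a split place below. -/
def subK (v : HeightOneSpectrum (𝓞 K)) : Subgroup (G2 K) :=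
  (P.subL (top (C := C) v)).comap (g2Map (algebraMap K L))

/-- The character at a split place below. -/
def chiK (v : HeightOneSpectrum (𝓞 K)) (g : G2 K) : ℂ :=
  P.chiL (top (C := C) v) (g2Map (algebraMap K L) g)

lemma dense {v : HeightOneSpectrum (𝓞 K)} (hs : C.IsSplit v) {u : HeightOneSpectrum (𝓞 L)}
    (hu : C.b u = v) (h : G2 L) :
    ∃ g : G2 K, h⁻¹ * g2Map (algebraMap K L) g ∈ P.ctx.UL.loc u :=
  exists_mem_of_dense P.ctx.congrL (fun y _ hr => C.twist.exists_near (hs u hu) y hr) h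

lemma incl_mem_UL_iff {v : HeightOneSpectrum (𝓞 K)} (hs : C.IsSplit v)
    {u : HeightOneSpectrum (𝓞 L)} (hu : C.b u = v) (g : G2 K) :
    g2Map (algebraMap K L) g ∈ P.ctx.UL.loc u ↔ g ∈ P.ctx.UK.loc v := by
  subst hu
  exact ⟨P.ctx.mem_of_incl' u (hs u rfl) g, P.ctx.incl_mem' u g⟩

lemma relIndex_split {v : HeightOneSpectrum (𝓞 K)} (hv : v ∈ C.S) (hs : C.IsSplit v)
    {u : HeightOneSpectrum (𝓞 L)} (hu : C.b u = v) :
    (P.ctx.UK.loc v).relIndex (P.subK v) = (P.ctx.UL.loc u).relIndex (P.subL u) := by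
  refine Loc.relIndex_eq_of_dense (g2Map (algebraMap K L)) (P.incl_mem_UL_iff hs hu)
    (fun g => ?_) (P.chL (by rw [hu]; exact hv)).le fun h _ => P.dense hs hu h
  exact (P.incl_const ((b_top v).trans hu.symm) g).2.symm

lemma chK {v : HeightOneSpectrum (𝓞 K)} (hv : v ∈ C.S) (hs : C.IsSplit v) :
    ChOn (P.subK v) (P.ctx.UK.loc v) (P.chiK v) := by
  have h := P.chL (w := top (C := C) v) (by rw [b_top]; exact hv)
  refine ⟨fun g hg => h.le ((P.incl_mem_UL_iff hs (b_top v) g).2 hg), ?_, fun g hg g' hg' => ?_,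
    fun g hg => h.map_one' _ ((P.incl_mem_UL_iff hs (b_top v) g).2 hg),
    fun g hg => h.norm _ hg⟩
  · rw [P.relIndex_split hv hs (b_top v)]; exact h.fin
  · show P.chiL _ _ = _
    rw [map_mul]
    exact h.map_mul _ hg _ hg'

open Classical in
lemma eFun_incl {v : HeightOneSpectrum (𝓞 K)} (hv : v ∈ C.S) (hs : C.IsSplit v)
    {u : HeightOneSpectrum (𝓞 L)} (hu : C.b u = v) (g : G2 K) :
    eFun (P.subL u) (P.ctx.UL.loc u) (P.chiL u) (g2Map (algebraMap K L) g) =
      eFun (P.subK v) (P.ctx.UK.loc v) (P.chiK v) g := by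
  obtain ⟨h1, h2⟩ := P.incl_const ((b_top v).trans hu.symm) g
  unfold eFun
  rw [P.relIndex_split hv hs hu]
  refine if_congr h2.symm ?_ rfl
  rw [chiK, h1]

open Classical in
/-- The idempotent above. -/
def eL (w : HeightOneSpectrum (𝓞 L)) : LocKer P.ctx.UL w :=
  if hw : C.b w ∈ C.S then (P.chL hw).ker else 1

lemma eL_mk {w : HeightOneSpectrum (𝓞 L)} (hw : C.b w ∈ C.S) (a b : G2 L) :
    (P.eL w).k (QuotientGroup.mk a) (QuotientGroup.mk b) =
      eFun (P.subL w) (P.ctx.UL.loc w) (P.chiL w) (b⁻¹ * a) := by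
  rw [eL, dif_pos hw]
  exact (P.chL hw).ker_mk a b

open Classical in
/-- The idempotent below. -/
def eK (v : HeightOneSpectrum (𝓞 K)) : LocKer P.ctx.UK v :=
  if hv : v ∈ C.S ∧ C.IsSplit v then (P.chK hv.1 hv.2).ker else 1

section Single

variable {w : HeightOneSpectrum (𝓞 L)} (hw : C.b w ∈ C.S) (hfix : placeMap C.τ w = w)

include hw hfix in
lemma supp_le : P.subL w ≤ gam w (P.a₀ (C.b w)) :=
  Loc.locKN_le_gam (P.supp_m w hw hfix)

include hw hfix in
lemma a₀_le_N : P.a₀ (C.b w) ≤ P.N (C.b w) := by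
  have := P.supp_m w hw hfix
  unfold Par.N
  omega

/-- The matching data at a place with one place above. -/
def desc : Descent C.τ (C.b w) w where
  place := C.oneAbove hfix
  UL := P.ctx.UL.loc w
  UK := P.ctx.UK.loc (C.b w)
  a₀ := P.a₀ (C.b w)
  N := P.N (C.b w)
  NK := P.NK (C.b w)
  supp_ge := P.supp_ge w hw hfix
  supp_v := P.supp_v w hw hfix
  inner := P.inner w hw hfix
  UL_le := (P.UL_mem hw).le.trans (gam_anti (P.a₀_le_N hw hfix))
  le_UL := (P.UL_mem hw).ge
  UL_tau u := by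
    have h := P.ctx.stable w u
    rwa [show (placeMap P.ctx.τ).symm w = w from (placeMap C.τ).symm_apply_eq.mpr hfix.symm] at h
  UK_le := (P.UK_mem hw).le
  UK_index := by
    show (P.UK.loc _).relIndex _ ≠ 0
    rw [P.UK_mem hw]
    exact relIndex_gam_ne_zero _ _ le_rfl
  NK_ge := by
    rw [Par.NK, if_neg fun h => (C.isSplit_iff w).mp h hfix]
  N_ge := P.a₀_le_N hw hfix
  F := eFun (P.subL w) (P.ctx.UL.loc w) (P.chiL w)
  F_supp g hg := P.supp_le hw hfix (Loc.mem_of_eFun_ne hg)
  F_left u hu g := (P.chL hw).eFun_left hu g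
  F_right u hu g := (P.chL hw).eFun_right hu g

instance descFintype : Fintype (gam w (P.desc hw hfix).c ⧸
    (P.desc hw hfix).UL.subgroupOf (gam w (P.desc hw hfix).c)) :=
  haveI : ((P.desc hw hfix).UL.subgroupOf (gam w (P.desc hw hfix).c)).FiniteIndex := ⟨fun h0 => by
    have h : (P.UL.loc w).relIndex (gam w (P.desc hw hfix).c) = 0 := h0
    rw [P.UL_mem hw] at h
    exact relIndex_gam_ne_zero w _ gam_le_locK h⟩
  Fintype.ofFinite _

lemma biInv_fv :
    BiInv P.ctx.UK (C.b w) (Descent.fv (D := P.desc hw hfix)) where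
  left u hu g := (P.desc hw hfix).fv_mul_left hu g
  right u hu g := (P.desc hw hfix).fv_mul_right hu g
  fin a := by
    refine (Loc.finite_cosets (H := gam (C.b w) (2 * d3 (C.b w))) ?_ ?_ a).subset fun d hd => ?_
    · exact (P.UK_mem hw).le.trans (gam_anti (by
        rw [Par.NK, if_neg fun h => (C.isSplit_iff w).mp h hfix]
        omega))
    · show (P.UK.loc _).relIndex _ ≠ 0
      rw [P.UK_mem hw]
      exact relIndex_gam_ne_zero _ _ gam_le_locK
    · obtain ⟨b, rfl, hb⟩ := hd
      refine ⟨b, rfl, ?_⟩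
      have h := of_not_not fun hn => hb (Descent.fv_eq_zero (D := P.desc hw hfix) hn)
      simpa using inv_mem (P.supp_v w hw hfix _ h)

end Single

open Classical in
/-- The kernel below at the places with one place above. -/
def fK (v : HeightOneSpectrum (𝓞 K)) : LocKer P.ctx.UK v :=
  if h : ∃ w, C.b w = v ∧ C.b w ∈ C.S ∧ placeMap C.τ w = w then
    h.choose_spec.1 ▸ (P.biInv_fv h.choose_spec.2.1 h.choose_spec.2.2).ker
  else 1

lemma fK_eq {w : HeightOneSpectrum (𝓞 L)} (hw : C.b w ∈ C.S) (hfix : placeMap C.τ w = w) :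
    P.fK (C.b w) = (P.biInv_fv hw hfix).ker := by
  classical
  have h : ∃ u, C.b u = C.b w ∧ C.b u ∈ C.S ∧ placeMap C.τ u = u := ⟨w, rfl, hw, hfix⟩
  rw [fK, dif_pos h]
  have key : ∀ (u : HeightOneSpectrum (𝓞 L)) (hb : C.b u = C.b w) (hu : C.b u ∈ C.S)
      (hf : placeMap C.τ u = u), hb ▸ (P.biInv_fv hu hf).ker = (P.biInv_fv hw hfix).ker := by
    intro u hb hu hf
    obtain rfl : w = u := C.eq_of_fixed hf hb.symm
    rfl
  exact key _ h.choose_spec.1 _ _

/-- A kernel from a function at the fixed place. -/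
lemma downVal_eq {w : HeightOneSpectrum (𝓞 L)} (hw : C.b w ∈ C.S) (hfix : placeMap C.τ w = w)
    (δ : G2 K) (z : Pt P.ctx.X (C.b w)) :
    (P.fK (C.b w)).k (δ • z) z = Descent.downVal (P.desc hw hfix) δ z := by
  induction z using QuotientGroup.induction_on with | H b =>
  rw [P.fK_eq hw hfix]
  show Descent.fv (D := P.desc hw hfix) (b⁻¹ * (δ * b)) = _
  rw [← mul_assoc]
  rfl

/-- The place itself in its fibre. -/
def self (w : HeightOneSpectrum (𝓞 L)) : P.ctx.Fib (C.b w) := ⟨w, rfl⟩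

/-- The twisted product over a single place. -/
lemma prod_eq {w : HeightOneSpectrum (𝓞 L)} (hw : C.b w ∈ C.S) (hfix : placeMap C.τ w = w)
    (γ : G2 L) (x : Fam P.ctx.B (C.b w)) :
    (∏ u : P.ctx.Fib (C.b w), (P.eL u.1).k (ft P.ctx.B γ (C.b w) x u) (x u)) =
      Descent.upVal (P.desc hw hfix) γ (x (P.self w)) := by
  have : Unique (P.ctx.Fib (C.b w)) :=
    ⟨⟨P.self w⟩, fun u => Subtype.ext (C.eq_of_fixed hfix u.2)⟩
  rw [Fintype.prod_unique, show (default : P.ctx.Fib (C.b w)) = P.self w from Subsingleton.elim _ _]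
  obtain ⟨a, ha⟩ := QuotientGroup.mk_surjective (x (P.self w))
  have hx : ∀ u, u = P.self w → x u = QuotientGroup.mk a := fun u hu => by subst hu; exact ha.symm
  show (P.eL w).k (γ • (LevelHom.ofAut P.ctx.stable).locMap w (x (P.ctx.prev (P.self w))))
    (x (P.self w)) = _
  rw [hx _ (Subsingleton.elim _ _), ← ha]
  show (P.eL w).k (QuotientGroup.mk (γ * g2Map (C.τ : L →+* L) a)) (QuotientGroup.mk a) =
    eFun (P.subL w) (P.ctx.UL.loc w) (P.chiL w) (a⁻¹ * γ * g2Map (C.τ : L →+* L) a)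
  rw [P.eL_mk hw, mul_assoc]

lemma locGlue {w : HeightOneSpectrum (𝓞 L)} (hw : C.b w ∈ C.S) (hfix : placeMap C.τ w = w)
    {γ : G2 L} {δ : G2 K} {H : Subgroup (G2 K)} {A} (hA : (P.desc hw hfix).Glued γ δ H A) :
    P.ctx.LocGlue (fun u : P.ctx.Fib (C.b w) => P.eL u.1) (P.fK (C.b w)) γ δ H
      (fun x z => A (x (P.self w)) z) := by
  let hU : Unique (P.ctx.Fib (C.b w)) :=
    ⟨⟨P.self w⟩, fun u => Subtype.ext (C.eq_of_fixed hfix u.2)⟩
  let e : Fam P.ctx.B (C.b w) ≃ G2 L ⧸ P.ctx.UL.loc w := Equiv.piUnique _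
  refine ⟨fun x z => hA.nonneg _ _, fun z => ?_, fun z => ?_, fun x hx => ?_,
    fun x => hA.finite_z _, fun g hg x z => hA.equiv g hg _ z⟩
  · refine ((hA.finite_x z).preimage e.injective.injOn).subset fun x hx => ?_
    rw [Set.mem_ofPred_eq, P.prod_eq hw hfix] at hx
    exact hx
  · rw [P.downVal_eq hw hfix]
    refine (tsum_congr fun x => ?_).trans
      ((e.tsum_eq fun c => Descent.upVal (P.desc hw hfix) γ c * (A c z : ℂ)).trans (hA.sum_x z))
    rw [P.prod_eq hw hfix]
    rfl
  · rw [P.prod_eq hw hfix] at hx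
    exact hA.sum_z _ hx

/-- The kernels at the bad places. -/
def bad : P.ctx.Bad where
  eL := P.eL
  eK := P.eK
  eL_one w hw := dif_neg hw
  eK_one v hv := dif_neg fun h => hv h.1
  eL_herm w := by
    unfold eL; split_ifs with h
    exacts [(P.chL h).isHerm, LocKer.isHerm_one]
  eK_herm v := by
    unfold eK; split_ifs with h
    exacts [(P.chK h.1 h.2).isHerm, LocKer.isHerm_one]
  eL_idem w := by
    unfold eL; split_ifs with h
    exacts [(P.chL h).idem, LocKer.one_mul 1]
  eK_idem v := by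
    unfold eK; split_ifs with h
    exacts [(P.chK h.1 h.2).idem, LocKer.one_mul 1]
  eL_sg w x y := by
    obtain ⟨u, rfl⟩ := (placeMap C.τ).surjective w
    revert x y
    show ∀ (x y : G2 L ⧸ P.ctx.UL.loc ((placeMap C.τ).symm (placeMap C.τ u))),
      (P.eL (placeMap C.τ u)).k ((LevelHom.ofAut P.ctx.stable).locMap _ x)
        ((LevelHom.ofAut P.ctx.stable).locMap _ y) =
          (P.eL ((placeMap C.τ).symm (placeMap C.τ u))).k x y
    intro x y
    induction x using QuotientGroup.induction_on with | H a =>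
    induction y using QuotientGroup.induction_on with | H b =>
    show (P.eL (placeMap C.τ u)).k (QuotientGroup.mk (g2Map (C.τ : L →+* L) a))
      (QuotientGroup.mk (g2Map (C.τ : L →+* L) b)) =
        (P.eL ((placeMap C.τ).symm (placeMap C.τ u))).k (QuotientGroup.mk a) (QuotientGroup.mk b)
    rw [show ∀ z (_ : z = u), (P.eL z).k (QuotientGroup.mk a) (QuotientGroup.mk b) =
      (P.eL u).k (QuotientGroup.mk a) (QuotientGroup.mk b) from fun z hz => by subst hz; rfl]
    swap
    · exact (placeMap C.τ).symm_apply_apply u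
    have hU : ∀ g, g2Map (C.τ : L →+* L) g ∈ P.ctx.UL.loc (placeMap C.τ u) ↔
        g ∈ P.ctx.UL.loc u := fun g => by
      have h := P.ctx.stable (placeMap C.τ u) g
      rwa [show (placeMap P.ctx.τ).symm (placeMap C.τ u) = u from
        (placeMap C.τ).symm_apply_apply u] at h
    by_cases hu : C.b u ∈ C.S
    swap
    · classical
      rw [eL, eL, dif_neg hu, dif_neg (by rwa [C.b_next]), LocKer.one_k, LocKer.one_k]
      refine if_congr ?_ rfl rfl
      rw [QuotientGroup.eq, QuotientGroup.eq, ← map_inv, ← map_mul]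
      exact hU (a⁻¹ * b)
    rw [P.eL_mk (by rwa [C.b_next]), P.eL_mk hu, ← map_inv, ← map_mul]
    have hH : ∀ g, g2Map (C.τ : L →+* L) g ∈ P.subL (placeMap C.τ u) ↔ g ∈ P.subL u := fun g => by
      unfold Par.subL
      rw [C.b_next]
      exact Loc.gmap_mem_locKN_iff C.τ u
    have hidx : (P.ctx.UL.loc u).relIndex (P.subL u) =
        (P.ctx.UL.loc (placeMap C.τ u)).relIndex (P.subL (placeMap C.τ u)) :=
      Loc.relIndex_eq_of_dense (g2Map (C.τ : L →+* L)) hU hH (P.chL (by rwa [C.b_next])).le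
        fun h _ => by
          obtain ⟨g, rfl⟩ := (bijective_g2Map C.τ).2 h
          exact ⟨g, by rw [inv_mul_cancel]; exact one_mem _⟩
    classical
    unfold eFun
    rw [hidx]
    refine if_congr (hH _) ?_ rfl
    congr 1
    unfold Par.chiL Par.xiL
    rw [C.b_next]
    conv_lhs => rw [← C.twist.fix (P.ξ (C.b u))]
    exact Loc.chW_gmap C.τ u _ _
  eL_up v hs u a b := by
    obtain ⟨u, hu⟩ := u
    induction a using QuotientGroup.induction_on with | H a =>
    induction b using QuotientGroup.induction_on with | H b =>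
    rw [Ctx.up_mk, Ctx.up_mk]
    by_cases hv : v ∈ C.S
    · have hu' : C.b u = v := hu
      rw [P.eL_mk (by rw [hu']; exact hv), eK, dif_pos ⟨hv, hs⟩, ChOn.ker_mk]
      show eFun _ _ _ ((g2Map (algebraMap K L) b)⁻¹ * g2Map (algebraMap K L) a) = _
      rw [← map_inv, ← map_mul]
      exact P.eFun_incl hv hs hu _
    · classical
      have hu' : C.b u = v := hu
      rw [eL, eK, dif_neg (by rw [hu']; exact hv), dif_neg fun h => hv h.1, LocKer.one_k,
        LocKer.one_k]
      refine if_congr ?_ rfl rfl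
      rw [QuotientGroup.eq, QuotientGroup.eq, ← map_inv, ← map_mul]
      exact P.incl_mem_UL_iff hs hu _
  fK := P.fK
  glue_one v hv hs := by
    obtain ⟨w, rfl, hfix⟩ := C.exists_fixed hs
    obtain ⟨A, hA⟩ := Descent.exists_glued_one (D := P.desc hv hfix)
    exact ⟨_, P.locGlue hv hfix hA⟩
  glue_rep v hv hs δ γ hδ hγ := by
    obtain ⟨w, rfl, hfix⟩ := C.exists_fixed hs
    obtain ⟨A, hA, t, Q, ht, hQ⟩ := P.glue w hv hfix (P.desc hv hfix) le_rfl δ γ hδ hγ
    refine ⟨_, P.locGlue hv hfix hA, t, Q, ht, fun x z hxz g hg u => ?_⟩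
    obtain rfl : u = P.self w := Subtype.ext (C.eq_of_fixed hfix u.2)
    exact hQ _ z hxz g hg
  norm_local v hv hs δ z hz := by
    obtain ⟨w, rfl, hfix⟩ := C.exists_fixed hs
    have h0 := P.downVal_eq hv hfix (ProjGenLinGroup.mk δ) z
    obtain ⟨b, hb⟩ := Descent.near_of_downVal_ne fun e => hz (h0.trans e)
    obtain ⟨B, rfl⟩ := ProjGenLinGroup.mk_surjective b
    rw [← map_inv, ← map_mul, ← map_mul] at hb
    obtain ⟨g, -, hg, hgv⟩ := Loc.exists_rep hb
    obtain ⟨s, hs'⟩ := Matrix.ProjGenLinGroup.mk_eq_mk_iff.mp hg.symm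
    refine Or.inr ⟨B, s, fun i j => ?_⟩
    have e : (s : K) • (B⁻¹ * δ * B).val = g.val := by
      rw [← hs', Units.val_mul (B⁻¹ * δ * B) (GeneralLinearGroup.scalar (Fin 2) s)]
      exact (by rw [LT.sc_val, mul_smul_comm, mul_one] :
        (s : K) • (B⁻¹ * δ * B).val = (B⁻¹ * δ * B).val * (sc s).val)
    rw [e, hgv, add_sub_cancel_left]
    refine (hb.2 i j).trans_lt ?_
    rw [show (9 : K) = 3 * 3 by norm_num, map_mul, Loc.val_three, ← exp_add]
    refine (mul_le_of_le_one_left zero_le (Loc.val_two_le _)).trans_lt ?_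
    rw [exp_lt_exp]
    push_cast
    omega

end Par

end FermatAgent.LT2
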