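import Fermat.Agent.LT2.Automorphic
import Fermat.Agent.LT2.Bad.Exists
import Fermat.Agent.LT2.Bad.Avg
import Fermat.Agent.LT.Descent.Spec.Act

/-!
# Invariance of eigenfunctions fixed by the kernels at the bad places

An eigenfunction above which is fixed by the idempotents at the bad places and has invariant
eigenvalues is invariant under the generator.
-/

set_option autoImplicit false

noncomputable section

open Matrix IsDedekindDomain NumberField Filter MeasureTheory WithZero
open FermatAgent.LT FermatAgent.LT.Whit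
open scoped MatrixGroups ContDiff

namespace FermatAgent.LT2

open FermatAgent.LT2.Loc (ChOn eFun chW)
open FermatAgent.LT2.Whit (locKN locKN_le IsForm FixedAt ChiAt stdPt)

section Fixed

variable {L : Type*} [Field L] [NumberField L] {U : Level L} {v : HeightOneSpectrum (𝓞 L)}
  {H : Subgroup (G2 L)} {χ : G2 L → ℂ}

/-- The kernel of a character acts by summing over the subgroup. -/
theorem Loc.ChOn.finOp_cls (hc : ChOn H (U.loc v) χ) [Fintype (H ⧸ (U.loc v).subgroupOf H)]
    (φ : Space U → ℂ) (y : InfPts L) (b : adelGrp L) :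
    finOp hc.ker φ (y, cls U b) = ∑ q : H ⧸ (U.loc v).subgroupOf H,
      ((U.loc v).relIndex H : ℂ)⁻¹ * χ ((q.out : G2 L)⁻¹) *
        φ (y, cls U (b * atV v (q.out : G2 L))) := by
  classical
  show ∑ d ∈ (hc.ker.row (QuotientGroup.mk (b.1 v))).toFinset,
    hc.ker.k (QuotientGroup.mk (b.1 v)) d * φ (y, (cls U b).update v d) = _
  rw [Finset.sum_subset (s₂ := Finset.univ.image (fibMap hc.le (b.1 v))) ?_ fun d _ hd => ?_,
    Finset.sum_image fun _ _ _ _ e => LT.fibMap_injective hc.le _ e]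
  · refine Finset.sum_congr rfl fun q _ => ?_
    conv_lhs => rw [← QuotientGroup.out_eq' q]
    rw [fibMap_mk, hc.ker_mk, ← cls_mul_atV, show (b.1 v * (q.out : G2 L))⁻¹ * b.1 v =
      (q.out : G2 L)⁻¹ by group, Loc.eFun_of_mem (inv_mem q.out.2)]
  · intro d hd
    rw [Set.Finite.mem_toFinset] at hd
    induction d using QuotientGroup.induction_on with | H d =>
    have hm : d⁻¹ * b.1 v ∈ H := Loc.mem_of_eFun_ne hd
    exact Finset.mem_image.2 ⟨QuotientGroup.mk ⟨(b.1 v)⁻¹ * d, by simpa using inv_mem hm⟩,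
      Finset.mem_univ _, by rw [fibMap_mk]; simp⟩
  · rw [Set.Finite.mem_toFinset, Set.mem_ofPred_eq, not_not] at hd
    rw [hd, zero_mul]

/-- A function fixed by the kernel of a character transforms by the character. -/
theorem Loc.ChOn.smul_of_fixed (hc : ChOn H (U.loc v) χ) {φ : Space U → ℂ}
    (hfix : ∀ x, finOp hc.ker φ x = φ x) {g : G2 L} (hg : g ∈ H) (y : InfPts L) (a : adelGrp L) :
    liftF U φ y (a * atV v g) = χ g * liftF U φ y a := by
  classical
  have : ((U.loc v).subgroupOf H).FiniteIndex := ⟨hc.fin⟩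
  have := Fintype.ofFinite (H ⧸ (U.loc v).subgroupOf H)
  have hval : ∀ b, φ (y, cls U b) = LT2.Whit.avg χ (liftF U φ) v H (U.loc v) y b := fun b => by
    rw [← hfix (y, cls U b), hc.finOp_cls φ y b]
    simp [LT2.Whit.avg, LT2.Whit.rt_apply, liftF]
  show φ (y, cls U (a * atV v g)) = χ g * φ (y, cls U a)
  rw [hval, hval, LT2.Whit.avg_chi hc (LT2.Whit.fixedAt_liftF v) hg]

end Fixed

variable {K L : Type*} [Field K] [NumberField K] [Field L] [NumberField L] [Algebra K L]

lemma Setup.isTotallyComplex (C : Setup K L) : IsTotallyComplex L :=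
  ⟨fun w => by
    obtain ⟨i, rfl⟩ := C.T.e.surjective w
    exact C.T.complex i⟩

namespace Par

variable {C : Setup K L} {n : ℕ} (P : Par C n)

open Classical in
/-- The places over the bad ones. -/
def above : Finset (HeightOneSpectrum (𝓞 L)) :=
  C.S.biUnion fun v => (C.finite_fib v).toFinset

/-- Membership among the places above `S`. -/
lemma mem_above {w : HeightOneSpectrum (𝓞 L)} : w ∈ above (C := C) ↔ C.b w ∈ C.S := by
  classical
  simp [above, eq_comm]

open Classical in
/-- The parameters as units. -/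
def xiU (w : HeightOneSpectrum (𝓞 L)) : Lˣ :=
  if h : P.xiL w ≠ 0 then Units.mk0 _ h else 1

lemma xiL_ne {w : HeightOneSpectrum (𝓞 L)} (hw : C.b w ∈ C.S) : P.xiL w ≠ 0 := fun e => by
  have h := P.ξ_val w hw
  rw [show algebraMap K L (P.ξ (C.b w)) = 0 from e, map_zero] at h
  exact exp_ne_zero h.symm

/-- The unit parameter is the parameter seen above. -/
lemma xiU_val {w : HeightOneSpectrum (𝓞 L)} (hw : C.b w ∈ C.S) : (P.xiU w : L) = P.xiL w := by
  rw [xiU, dif_pos (P.xiL_ne hw), Units.val_mk0]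

lemma exists_locKN_le (w : HeightOneSpectrum (𝓞 L)) : ∃ k, locKN w k ≤ P.ctx.UL.loc w := by
  show ∃ k, locKN w k ≤ P.UL.loc w
  by_cases hw : C.b w ∈ C.S
  · exact ⟨P.N (C.b w) + 1 + 2 * Loc.d2 w, by rw [P.UL_mem hw]; exact Loc.locKN_le_gam le_rfl⟩
  · exact ⟨0, by rw [P.UL_notMem hw, LT2.Whit.locKN_zero]⟩

/-- Fixed functions transform by the characters. -/
theorem chiAt {φ : Space P.ctx.UL → ℂ} {w : HeightOneSpectrum (𝓞 L)} (hw : C.b w ∈ C.S)
    (hfix : ∀ x, finOp (P.bad.eL w) φ x = φ x) :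
    ChiAt (liftF P.ctx.UL φ) w (P.m (C.b w)) (P.xiL w) := fun g hg y a => by
  have e : P.bad.eL w = (P.chL hw).ker := dif_pos hw
  rw [e] at hfix
  exact (P.chL hw).smul_of_fixed hfix hg y a

/-- **Invariance.** An eigenfunction fixed by the idempotents of a large depth, with eigenvalues
invariant under the automorphism, is invariant under it. -/
theorem fixHyp : Spec.FixHyp P.bad := by
  intro φ hφ c (hc : ∀ w, C.b w ∉ C.S → c (placeMap C.τ w) = c w) hheck heL
  obtain ⟨hinv, hm, hb, hrad⟩ := hφ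
  classical
  have := C.isTotallyComplex
  set f := liftF P.ctx.UL φ
  set T := above (C := C)
  set g := Whit.gal C.τ f
  set m : HeightOneSpectrum (𝓞 L) → ℕ := fun w => P.m (C.b w)
  have hr : IsRadial f := fun w k hk hs y a => hrad w k hk hs (y, cls _ a)
  have hf : IsForm f := LT2.Whit.isForm_liftF P.exists_locKN_le hinv hm hb hr
  have hU : ∀ w, w ∉ T → P.ctx.UL.loc w = locK w := fun w hw =>
    P.UL_notMem fun h => hw (mem_above.2 h)
  have hT : ∀ w, placeMap C.τ w ∈ T ↔ w ∈ T := fun w => by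
    rw [mem_above, mem_above, C.b_next]
  have hK : ∀ w ∉ T, FixedAt f w (locK w) := fun w hw => by
    rw [← hU w hw]; exact LT2.Whit.fixedAt_liftF w
  have hHk : ∀ w ∉ T, heckeT w f = c w • f := fun w hw =>
    LT2.Whit.heckeT_liftF (hU w hw) (hheck w fun h => hw (mem_above.2 h))
  have hKg : ∀ w ∉ T, FixedAt g w (locK w) := fun w hw =>
    FixedAt.gal C.τ (hK _ fun h => hw ((hT w).1 h))
  have hHg : ∀ w ∉ T, heckeT w g = c w • g := fun w hw => by
    rw [LT2.Whit.heckeT_gal C.τ (hK _ fun h => hw ((hT w).1 h)),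
      hHk _ fun h => hw ((hT w).1 h), hc w fun h => hw (mem_above.2 h)]
    rfl
  have hξ : ∀ w ∈ T, w.valuation L (P.xiU w : L) = exp (cnd w + 2 * m w) := fun w hw => by
    rw [P.xiU_val (mem_above.1 hw)]; exact P.ξ_val w (mem_above.1 hw)
  have hχ : ∀ w ∈ T, ChiAt f w (m w) (P.xiU w : L) := fun w hw => by
    rw [P.xiU_val (mem_above.1 hw)]; exact P.chiAt (mem_above.1 hw) (heL w (mem_above.1 hw))
  have hτξ : ∀ w ∈ T, C.τ (P.xiU w : L) = (P.xiU (placeMap C.τ w) : L) := fun w hw => by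
    rw [P.xiU_val (mem_above.1 hw), P.xiU_val (mem_above.1 ((hT w).2 hw)), Par.xiL, Par.xiL,
      C.twist.fix, C.b_next]
  have hχg : ∀ w ∈ T, ChiAt g w (m w) (P.xiU w : L) := fun w hw k hk y a => by
    show f _ _ = _ * f _ _
    have hk' : g2Map (C.τ : L →+* L) k ∈ locKN (placeMap C.τ w) (m w) :=
      (Loc.gmap_mem_locKN_iff C.τ w).2 hk
    have hm' : m (placeMap C.τ w) = m w := by simp only [m, C.b_next]
    rw [map_mul, adelMap_atV, hχ _ ((hT w).2 hw) _ (by rwa [hm']), ← hτξ w hw, Loc.chW_gmap]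
  set D := g - f
  have hg : IsForm g := hf.gal C.τ
  have hD : IsForm D := hg.sub hf
  have hrD : IsRadial D := LT2.Whit.IsRadial.sub' hg (IsRadial.gal C.τ hr) hf hr
  have hKD : ∀ w ∉ T, FixedAt D w (locK w) := fun w hw k hk y a => by
    simp only [D, Pi.sub_apply, hKg w hw k hk y a, hK w hw k hk y a]
  have hHD : ∀ w ∉ T, heckeT w D = c w • D := fun w hw => by
    funext y a
    have h1 := congrFun (congrFun (hHg w hw) y) a
    have h2 := congrFun (congrFun (hHk w hw) y) a
    simp only [heckeT, Pi.smul_apply, smul_eq_mul, D, Pi.sub_apply, Finset.sum_sub_distrib]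
      at h1 h2 ⊢
    linear_combination h1 - h2
  have hχD : ∀ w ∈ T, ChiAt D w (m w) (P.xiU w : L) := fun w hw k hk y a => by
    simp only [D, Pi.sub_apply, hχg w hw k hk y a, hχ w hw k hk y a, mul_sub]
  set b := stdPt T P.xiU
  have hstd : ∀ y, LT2.Whit.W f y (adelMap C.τ b) = LT2.Whit.W f y b := fun y => by
    obtain ⟨u, hu, hu1, hu2⟩ : ∃ u, adelMap C.τ b = b * u ∧ (∀ w ∈ T, u.1 w = 1) ∧
        ∀ w ∉ T, u.1 w ∈ locK w := by
      refine ⟨b⁻¹ * adelMap C.τ b, (mul_inv_cancel_left _ _).symm, fun w hw => ?_, fun w hw => ?_⟩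
      all_goals obtain ⟨v, rfl⟩ := (placeMap C.τ).surjective w
      · show (b.1 _)⁻¹ * (adelMap C.τ b).1 _ = 1
        rw [adelMap_apply, LT2.Whit.stdPt_mem hw, LT2.Whit.stdPt_mem ((hT v).1 hw), g2Map_dG,
          inv_mul_eq_one]
        exact congrArg _ (Units.ext (hτξ v ((hT v).1 hw)).symm)
      · show (b.1 _)⁻¹ * (adelMap C.τ b).1 _ ∈ _
        rw [adelMap_apply, LT2.Whit.stdPt_notMem hw,
          LT2.Whit.stdPt_notMem fun h => hw ((hT v).2 h), g2Map_dG, ← dG_inv, ← dG_mul]
        refine dG_mem_locK ?_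
        rw [Units.val_mul, map_mul, Units.val_inv_eq_inv_val, map_inv₀, v_unifU_zpow,
          show ((mapU C.τ (unifU v ^ (-cnd v)) : Lˣ) : L) = C.τ ((unifU v ^ (-cnd v) : Lˣ) : L)
            from rfl, valuation_placeMap, v_unifU_zpow, LT.Whit.cnd_placeMap,
              inv_mul_cancel₀ exp_ne_zero]
    rw [hu]
    exact hf.W_right (fun y a => hf.right_of_fixed hK hu1 hu2 y a) y b
  have h0 : LT2.Whit.W D baseY b = 0 := by
    rw [hg.W_sub hf, hf.W_gal C.τ, infMap_baseY, hstd, sub_self]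
  have hzero := hD.eq_zero_of_std hξ (fun w _ => P.m_pos _) hχD hrD hKD c hHD h0
  rintro ⟨y, z⟩
  obtain ⟨a, rfl⟩ := cls_surjective z
  show φ ((LevelHom.ofAut P.ctx.stable).map (y, cls _ a)) = _
  exact (congrArg φ (cls_adelMap C.τ P.ctx.stable y a)).trans
    (sub_eq_zero.1 (congrFun (congrFun hzero y) a))

end Par

end FermatAgent.LT2
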