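import Fermat.Agent.LT2.Bad.Fix
import Fermat.Agent.LT2.Bad.Avg

/-!
# Eigenfunctions fixed by deep kernels at the bad places

Shifted along the torus and averaged, a nonzero cuspidal eigenfunction gives one fixed by the
idempotents of every large depth, with the same eigenvalues.
-/

set_option autoImplicit false

noncomputable section

open Matrix IsDedekindDomain NumberField Filter MeasureTheory WithZero
open FermatAgent.LT FermatAgent.LT.Whit
open FermatAgent.LT2.Loc (rat rat_mk gam)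
open scoped MatrixGroups ContDiff

namespace FermatAgent.LT2

open FermatAgent.LT2.Whit (locKN locCN mem_locCN_of IsForm FixedAt ChiAt stdPt IsTorusPt PreAt)

variable {L : Type*} [Field L] [NumberField L] {v : HeightOneSpectrum (𝓞 L)}

/-- Shifting along the torus keeps the deep elements with vanishing quotient. -/
lemma conj_dG_mem_locKN {m j : ℕ} (hm : 0 < m) (hj : 0 < j) (hjm : j ≤ m) {u : Lˣ}
    (hu : exp (-(m : ℤ)) * v.valuation L (u : L) ≤ exp (-(j : ℤ))) {g : G2 L}
    (hg : g ∈ locKN v m) (hg0 : rat g = 0) : (dG u)⁻¹ * g * dG u ∈ locKN v j := by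
  obtain ⟨G, ⟨-, hG⟩, rfl⟩ := hg
  have h11 := Loc.diag_ne_zero hm hG 1
  rw [rat_mk, div_eq_zero_iff] at hg0
  have h01 : G.val 0 1 = 0 := hg0.resolve_right h11
  refine ⟨(dB u)⁻¹ * G * dB u, mem_locCN_of hj fun i k => ?_, by simp⟩
  have hd : ((dB u)⁻¹ : GL (Fin 2) L).val = !![((u⁻¹ : Lˣ) : L), 0; 0, 1] := by
    have e : (dB u)⁻¹ = dB u⁻¹ := inv_eq_of_mul_eq_one_right (Units.ext (by
      ext a b; fin_cases a <;> fin_cases b <;> simp))
    rw [e]
    ext a b; fin_cases a <;> fin_cases b <;> simp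
  have hjm' : exp (-(m : ℤ)) ≤ exp (-(j : ℤ)) := exp_le_exp.2 (by omega)
  have e : ((((dB u)⁻¹ * G * dB u : GL (Fin 2) L)).val - 1) i k =
      !![(G.val - 1) 0 0, 0; (u : L) * (G.val - 1) 1 0, (G.val - 1) 1 1] i k := by
    rw [Units.val_mul, Units.val_mul, hd]
    fin_cases i <;> fin_cases k <;>
      simp [Matrix.mul_apply, Matrix.vecMul, dotProduct, Fin.sum_univ_two, h01] <;>
      field_simp
  rw [e]
  fin_cases i <;> fin_cases k
  · simpa using (hG 0 0).trans hjm'
  · simp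
  · simp only [Fin.mk_one, Fin.zero_eta, Matrix.of_apply, Matrix.cons_val', Matrix.cons_val_zero,
      Matrix.cons_val_one, Matrix.cons_val_fin_one]
    rw [map_mul, mul_comm]
    exact (mul_le_mul_left (hG 1 0) _).trans hu
  · simpa using (hG 1 1).trans hjm'

variable {K : Type*} [Field K] [NumberField K] [Algebra K L]

/-- A shift of a form fixed by deep kernels is fixed by the kernels of depth `m` with vanishing
quotient and by deeper ones. -/
private lemma preAt_rt {U₀ : Level L} {φ : Space U₀ → ℂ} {w : HeightOneSpectrum (𝓞 L)} {k m : ℕ}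
    (hk : locKN w k ≤ U₀.loc w) (hkm : k < m) {r : adelGrp L} {u : Lˣ} (hr : r.1 w = dG u)
    (hu : exp (-(m : ℤ)) * w.valuation L (u : L) ≤ exp (-((k + 1 : ℕ) : ℤ))) :
    PreAt (LT2.Whit.rt r (liftF U₀ φ)) w m := by
  have hswap : ∀ g y (b : adelGrp L), LT2.Whit.rt r (liftF U₀ φ) y (b * atV w g) =
      liftF U₀ φ y (b * r * atV w ((r.1 w)⁻¹ * g * r.1 w)) := fun g y b => by
    show liftF U₀ φ y (b * atV w g * r) = _
    rw [mul_assoc b, atV_mul_self, ← mul_assoc]
  constructor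
  · intro g hg hg0 y b
    rw [hswap, hr]
    refine LT2.Whit.fixedAt_liftF (U := U₀) w _ (hk ?_) y _
    exact LT2.Whit.locKN_anti w (Nat.le_succ k)
      (conj_dG_mem_locKN (by omega) (Nat.succ_pos _) (by omega) hu hg hg0)
  · obtain ⟨k', hk'⟩ := LT2.Whit.exists_conj_mem w (r.1 w) k
    refine ⟨max k' (2 * m), le_max_right _ _, fun g hg y b => ?_⟩
    rw [hswap]
    refine LT2.Whit.fixedAt_liftF (U := U₀) w _ (hk (hk' g ?_)) y _
    exact LT2.Whit.locKN_anti w (by omega) (Loc.gam_le_locKN hg)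

/-- A typed eigenform with a nonzero coefficient descends to the space of the parameters, fixed by
the idempotents at the bad places. -/
private lemma exists_space_of_typed [IsTotallyComplex L] {C : Setup K L} {n : ℕ} (P : Par C n)
    {c : HeightOneSpectrum (𝓞 L) → ℂ} {F : InfPts L → adelGrp L → ℂ} (hF : IsForm F)
    (hFr : IsRadial F) (hFK : ∀ w ∉ Par.above (C := C), FixedAt F w (locK w))
    (hFH : ∀ w ∉ Par.above (C := C), heckeT w F = c w • F)
    (hFχ : ∀ w ∈ Par.above (C := C), ChiAt F w (P.m (C.b w)) (P.xiU w : L))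
    (hFW' : LT2.Whit.W F baseY (stdPt (Par.above (C := C)) P.xiU) ≠ 0) :
    ∃ ψ : Space P.ctx.UL → ℂ, IsEigenFun ψ ∧
      (∀ w, C.b w ∉ C.S → ∀ x, heckeOp w ψ x = c w * ψ x) ∧
      (∀ w, C.b w ∈ C.S → ∀ x, finOp (P.bad.eL w) ψ x = ψ x) ∧ ψ ≠ 0 := by
  classical
  have hfix : ∀ w, FixedAt F w (P.ctx.UL.loc w) := by
    intro w
    by_cases hw : w ∈ Par.above (C := C)
    · intro g hg y b
      have h := P.chL (Par.mem_above.1 hw)
      rw [hFχ w hw g (h.le hg) y b, P.xiU_val (Par.mem_above.1 hw)]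
      rw [show Loc.chW w (P.xiL w) g = 1 from h.map_one' g hg, one_mul]
    · rw [show P.ctx.UL.loc w = locK w from P.UL_notMem fun h => hw (Par.mem_above.2 h)]
      exact hFK w hw
  set ψ : Space P.ctx.UL → ℂ := fun x => F x.1 (Function.surjInv cls_surjective x.2)
  have hψ : ∀ y a, ψ (y, cls P.ctx.UL a) = F y a := fun y a => by
    have e : cls P.ctx.UL (Function.surjInv cls_surjective (cls P.ctx.UL a)) = cls P.ctx.UL a :=
      Function.surjInv_eq cls_surjective _
    show F y _ = F y a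
    conv_rhs => rw [← mul_inv_cancel_left (Function.surjInv cls_surjective (cls P.ctx.UL a)) a]
    exact (hF.right_of_level hfix (cls_eq_iff.1 e) y _).symm
  have hlift : liftF P.ctx.UL ψ = F := funext fun y => funext fun a => hψ y a
  refine ⟨ψ, ⟨fun g x => ?_, measurable_from_prod_countable_left
    fun z => (hF.cont (Function.surjInv cls_surjective z)).measurable,
    ?_, fun w k hk hs x => ?_⟩, fun w hw x => ?_, fun w hw x => ?_, fun e => hFW' ?_⟩
  · obtain ⟨y, z⟩ := x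
    obtain ⟨a, rfl⟩ := cls_surjective z
    show ψ (g • y, g • cls _ a) = ψ (y, cls _ a)
    rw [← cls_glob_mul, hψ, hψ, hF.glob_smul]
  · obtain ⟨B, hB⟩ := hF.bdd
    exact ⟨B, fun x => hB _ _⟩
  · obtain ⟨y, z⟩ := x
    obtain ⟨a, rfl⟩ := cls_surjective z
    have h := hFr w k hk hs y a
    rw [← hlift] at h
    exact h
  · obtain ⟨y, z⟩ := x
    obtain ⟨a, rfl⟩ := cls_surjective z
    have h := congrFun (congrFun (hFH w fun h => hw (Par.mem_above.1 h)) y) a
    rw [← hlift] at h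
    rw [heckeOp_cls (U := P.ctx.UL) w (P.UL_notMem hw)]
    exact h
  · obtain ⟨y, z⟩ := x
    obtain ⟨a, rfl⟩ := cls_surjective z
    have hT : w ∈ Par.above (C := C) := Par.mem_above.2 hw
    have hc := P.chL hw
    have : ((P.ctx.UL.loc w).subgroupOf (P.subL w)).FiniteIndex := ⟨hc.fin⟩
    have := Fintype.ofFinite (P.subL w ⧸ (P.ctx.UL.loc w).subgroupOf (P.subL w))
    rw [show P.bad.eL w = hc.ker from dif_pos hw, hc.finOp_cls]
    simp only [hψ]
    have hq : ∀ q : P.subL w ⧸ (P.ctx.UL.loc w).subgroupOf (P.subL w),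
        ((P.ctx.UL.loc w).relIndex (P.subL w) : ℂ)⁻¹ * P.chiL w ((q.out : G2 L)⁻¹) *
          F y (a * atV w (q.out : G2 L)) =
            ((P.ctx.UL.loc w).relIndex (P.subL w) : ℂ)⁻¹ * F y a := fun q => by
      rw [hFχ w hT _ q.out.2 y a, P.xiU_val hw, hc.map_inv q.out.2]
      linear_combination ((P.ctx.UL.loc w).relIndex (P.subL w) : ℂ)⁻¹ * F y a * hc.norm _ q.out.2
    rw [Finset.sum_congr rfl fun q _ => hq q, Finset.sum_const, Finset.card_univ, nsmul_eq_mul,
      show Fintype.card (P.subL w ⧸ (P.ctx.UL.loc w).subgroupOf (P.subL w)) =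
        (P.ctx.UL.loc w).relIndex (P.subL w) from Nat.card_eq_fintype_card.symm,
      mul_inv_cancel_left₀ (by exact_mod_cast hc.fin)]
  · rw [show F = 0 from funext fun y => funext fun a => by rw [← hψ, e]; rfl, LT2.Whit.W_zero]

/-- **Nonzero images.** A nonzero cuspidal eigenfunction at a congruence level, maximal off the bad
places, gives for every large depth a nonzero eigenfunction with the same eigenvalues fixed by the
idempotents at the bad places. -/
theorem Par.exists_image [IsTotallyComplex L] (C : Setup K L) {U₀ : Level L} (hU₀ : U₀.IsCongr)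
    (hU₀K : ∀ w, C.b w ∉ C.S → U₀.loc w = locK w)
    {φ : Space U₀ → ℂ} (hφ : IsEigenFun φ) (c : HeightOneSpectrum (𝓞 L) → ℂ)
    (hheck : ∀ w, C.b w ∉ C.S → ∀ x, heckeOp w φ x = c w * φ x)
    (hne : φ ≠ 0) :
    ∃ N : ℕ, ∀ n, N ≤ n → ∀ P : Par C n, ∃ ψ : Space P.ctx.UL → ℂ, IsEigenFun ψ ∧
      (∀ w, C.b w ∉ C.S → ∀ x, heckeOp w ψ x = c w * ψ x) ∧
      (∀ w, C.b w ∈ C.S → ∀ x, finOp (P.bad.eL w) ψ x = ψ x) ∧ ψ ≠ 0 := by
  classical
  obtain ⟨hinv, hmeas, hb, hrad⟩ := hφ
  set f := liftF U₀ φ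
  set T := Par.above (C := C)
  have hdeep : ∀ w, ∃ k, locKN w k ≤ U₀.loc w := fun w => by
    obtain ⟨k, hk⟩ := hU₀ w
    refine ⟨k + 1, ?_⟩
    rintro _ ⟨g, ⟨hg, hg'⟩, rfl⟩
    exact hk g hg fun i j => (hg' i j).trans_eq (by push_cast; rfl)
  choose k hk using hdeep
  have hU : ∀ w, w ∉ T → U₀.loc w = locK w := fun w hw =>
    hU₀K w fun h => hw (Par.mem_above.2 h)
  have hr : IsRadial f := fun w k hk hs y a => hrad w k hk hs (y, cls _ a)
  have hf : IsForm f :=
    LT2.Whit.isForm_liftF (fun w => ⟨k w, hk w⟩) hinv hmeas hb hr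
  have hK : ∀ w ∉ T, FixedAt f w (locK w) := fun w hw => by
    rw [← hU w hw]; exact LT2.Whit.fixedAt_liftF w
  have hH : ∀ w ∉ T, heckeT w f = c w • f := fun w hw =>
    LT2.Whit.heckeT_liftF (hU w hw) (hheck w fun h => hw (Par.mem_above.2 h))
  obtain ⟨a₀, ha₀, hW⟩ : ∃ a₀, IsTorusPt T a₀ ∧ LT2.Whit.W f baseY a₀ ≠ 0 := by
    by_contra hno
    push Not at hno
    have h0 := hf.eq_zero_of_pts hr T hK c hH hno
    apply hne
    funext ⟨y, z⟩
    obtain ⟨a, rfl⟩ := cls_surjective z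
    exact congrFun (congrFun h0 y) a
  choose! α hα using ha₀.1
  set B : HeightOneSpectrum (𝓞 L) → ℕ := fun w =>
    k w + 1 + (log (w.valuation L (α w : L)) - cnd w).toNat
  refine ⟨T.sup B, fun n hn P => ?_⟩
  set m : HeightOneSpectrum (𝓞 L) → ℕ := fun w => P.m (C.b w)
  have hmB : ∀ w ∈ T, B w ≤ m w := fun w hw =>
    (Finset.le_sup hw).trans (hn.trans (P.m_ge _))
  have hξ : ∀ w ∈ T, w.valuation L (P.xiU w : L) = exp (cnd w + 2 * m w) := fun w hw => by
    rw [P.xiU_val (Par.mem_above.1 hw)]; exact P.ξ_val w (Par.mem_above.1 hw)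
  let r : adelGrp L := ⟨fun w => if w ∈ T then dG ((P.xiU w)⁻¹ * α w) else 1,
    show ∀ᶠ w in cofinite, _ by
      filter_upwards [T.finite_toSet.compl_mem_cofinite] with w hw
      rw [if_neg (by simpa using hw)]
      exact one_mem _⟩
  have hr1 : ∀ w ∉ T, r.1 w = 1 := fun w hw => if_neg hw
  set f1 := LT2.Whit.rt r f
  have hpre : ∀ w ∈ T, PreAt f1 w (m w) := fun w hw => by
    have hmw := hmB w hw
    simp only [B] at hmw
    refine preAt_rt (hk w) (by omega) (u := (P.xiU w)⁻¹ * α w) (if_pos hw) ?_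
    rw [Units.val_mul, map_mul, Units.val_inv_eq_inv_val, map_inv₀, hξ w hw]
    set a := log (w.valuation L (α w : L))
    have hα0 : w.valuation L (α w : L) ≠ 0 := (Valuation.ne_zero_iff _).2 (α w).ne_zero
    rw [← exp_log hα0, ← WithZero.exp_neg, ← exp_add, ← exp_add, exp_le_exp]
    have := Int.self_le_toNat (a - cnd w)
    push_cast
    omega
  have hK1 : ∀ w ∉ T, FixedAt f1 w (locK w) := fun w hw => (hK w hw).rt (hr1 w hw)
  have hH1 : ∀ w ∉ T, heckeT w f1 = c w • f1 := fun w hw => LT2.Whit.heckeT_rt (hH w hw) (hr1 w hw)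
  obtain ⟨F, hF, hFr, hFK, hFH, hFχ, hFW⟩ := LT2.Whit.exists_typed
    (fun w _ N => relIndex_gam_ne_zero w N (LT2.Whit.locKN_le w _)) hξ (fun w _ => P.m_pos _)
    (hf.rt r) (IsRadial.rt hr r) hK1 c hH1 hpre
  have hstd : stdPt T P.xiU * r = a₀ := by
    refine Subtype.ext (funext fun w => ?_)
    show (stdPt T P.xiU).1 w * r.1 w = _
    by_cases hw : w ∈ T
    · rw [LT2.Whit.stdPt_mem hw, show r.1 w = dG ((P.xiU w)⁻¹ * α w) from if_pos hw, ← dG_mul,
        mul_inv_cancel_left, hα w hw]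
    · rw [LT2.Whit.stdPt_notMem hw, hr1 w hw, mul_one, ha₀.2 w hw]
  have hFW' : LT2.Whit.W F baseY (stdPt T P.xiU) ≠ 0 := by
    rw [hFW, hf.W_rt, hstd]; exact hW
  exact exists_space_of_typed P hF hFr hFK hFH hFχ hFW'

end FermatAgent.LT2
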