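import Fermat.Agent.LT2.Bad.Gal

/-!
# Uniqueness of forms typed by a deep character

A form which at the places of a finite set transforms by the characters of deep congruence subgroups
has its Whittaker function there on one class of the torus; if it is moreover unramified and a Hecke
eigenfunction elsewhere, one value determines it.
-/

set_option autoImplicit false

noncomputable section

open Matrix IsDedekindDomain NumberField Filter MeasureTheory WithZero
open FermatAgent.LT FermatAgent.LT.Whit
open FermatAgent.LT.Theta.LocalChar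
open FermatAgent.LT2.Loc (chW rat rat_mk)
open scoped MatrixGroups

namespace FermatAgent.LT2.Whit

variable {L : Type*} [Field L] [NumberField L]

/-- Transformation at one place by the character of depth `m` and parameter `ξ`. -/
def ChiAt (f : InfPts L → adelGrp L → ℂ) (v : HeightOneSpectrum (𝓞 L)) (m : ℕ) (ξ : L) : Prop :=
  ∀ g ∈ locKN v m, ∀ (y : InfPts L) (a : adelGrp L), f y (a * atV v g) = chW v ξ g * f y a

lemma rat_nB (b : L) : rat (nB b : G2 L) = b := by
  rw [nB, rat_mk]; simp

omit [NumberField L] in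
lemma rat_dG (u : Lˣ) : rat (dG u : G2 L) = 0 := by
  rw [dG, rat_mk]; simp

lemma dG_mem_locKN {v : HeightOneSpectrum (𝓞 L)} {m : ℕ} (hm : 0 < m) {u : Lˣ}
    (hu : v.valuation L ((u : L) - 1) ≤ exp (-(m : ℤ))) : (dG u : G2 L) ∈ locKN v m := by
  refine ⟨_, mem_locCN_of hm fun i j => ?_, rfl⟩
  fin_cases i <;> fin_cases j <;> first | (simp; done) | simpa using hu

/-- The normalised point of the parameters. -/
def stdPt (P : Finset (HeightOneSpectrum (𝓞 L))) (ξ : HeightOneSpectrum (𝓞 L) → Lˣ) : adelGrp L :=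
  open Classical in
  ⟨fun v => if v ∈ P then dG (ξ v) else dG (unifU v ^ (-cnd v)), show ∀ᶠ v in cofinite, _ by
    filter_upwards [P.finite_toSet.compl_mem_cofinite,
      Theta.LocalChar.eventually_cond_eq_zero (L := L)] with v hv hc
    rw [if_neg (by simpa using hv), show cnd v = 0 from hc, neg_zero, zpow_zero, dG_one]
    exact one_mem _⟩

variable {P : Finset (HeightOneSpectrum (𝓞 L))} {ξ : HeightOneSpectrum (𝓞 L) → Lˣ}
  {m : HeightOneSpectrum (𝓞 L) → ℕ}

/-- The normalised point at a parameter place. -/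
lemma stdPt_mem {v : HeightOneSpectrum (𝓞 L)} (hv : v ∈ P) : (stdPt P ξ).1 v = dG (ξ v) := if_pos hv

/-- The normalised point at the other places. -/
lemma stdPt_notMem {v : HeightOneSpectrum (𝓞 L)} (hv : v ∉ P) :
    (stdPt P ξ).1 v = dG (unifU v ^ (-cnd v)) := if_neg hv

variable [IsTotallyComplex L] {f : InfPts L → adelGrp L → ℂ} (hf : IsForm f)

omit [IsTotallyComplex L] in
include hf in
/-- Integral elements whose components fix a form fix it. -/
theorem IsForm.right_of_locK {u : adelGrp L} (hu : ∀ v, u.1 v ∈ locK v)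
    (h : ∀ v (y : InfPts L) (b : adelGrp L), f y (b * atV v (u.1 v)) = f y b) (y : InfPts L)
    (a : adelGrp L) : f y (a * u) = f y a := by
  classical
  obtain ⟨S, k, hU⟩ := hf.smooth
  refine right_of_local (Φ := f y) S u (fun v _ b => h v y b)
    (fun u' h1 h2 b => hU y b u' fun v => ?_) a
  by_cases hvS : v ∈ S
  · rw [h1 v hvS]; exact one_mem _
  · rw [deepLvl_loc_of_notMem hvS, h2 v hvS]; exact hu v

omit [IsTotallyComplex L] in
include hf in
/-- Elements which are one at `P` and integral elsewhere fix a form unramified away from `P`. -/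
theorem IsForm.right_of_fixed (hK : ∀ v ∉ P, FixedAt f v (locK v)) {u : adelGrp L}
    (h1 : ∀ v ∈ P, u.1 v = 1) (h2 : ∀ v ∉ P, u.1 v ∈ locK v) (y : InfPts L) (a : adelGrp L) :
    f y (a * u) = f y a := by
  refine hf.right_of_locK (fun v => ?_) (fun v y b => ?_) y a <;> by_cases hv : v ∈ P
  exacts [h1 v hv ▸ one_mem _, h2 v hv, by rw [h1 v hv, map_one, mul_one],
    hK v hv _ (h2 v hv) y b]

include hf in
lemma IsForm.W_chi {v : HeightOneSpectrum (𝓞 L)} {k : ℕ} {x : L} (h : ChiAt f v k x) {g : G2 L}
    (hg : g ∈ locKN v k) (y : InfPts L) (a : adelGrp L) :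
    W f y (a * atV v g) = chW v x g * W f y a := by
  rw [← hf.W_rt, show Whit.rt (atV v g) f = chW v x g • f from funext fun z => funext fun b =>
    h g hg z b, hf.W_smul]

include hf in
/-- The torus component is near the parameter, or the Whittaker function vanishes. -/
lemma IsForm.near_of_W_ne {v : HeightOneSpectrum (𝓞 L)} {k : ℕ} {x : L} (h : ChiAt f v k x)
    {a : adelGrp L} {α : Lˣ} (ha : a.1 v = dG α) {y : InfPts L} (hne : W f y a ≠ 0) :
    v.valuation L ((α : L) - x) ≤ exp (cnd v + k) := by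
  by_contra hlt
  rw [not_le] at hlt
  have hlog : exp (cnd v + k + 1) ≤ v.valuation L ((α : L) - x) := by
    have h0 : v.valuation L ((α : L) - x) ≠ 0 := (lt_of_le_of_lt zero_le hlt).ne'
    rw [← exp_log h0, exp_lt_exp] at hlt
    rw [← exp_log h0, exp_le_exp]
    omega
  obtain ⟨b, hb, hψ⟩ := exists_psiV_mul_ne_one (v := v) (x := (α : L) - x) (m := -(k : ℤ)) (by
    refine le_trans ?_ (mul_le_mul_left hlog _)
    rw [← exp_add, exp_le_exp]
    omega)
  have h1 := hf.W_dG_mul_nB ha b y
  rw [hf.W_chi h (nB_mem_locKN hb), chW, rat_nB] at h1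
  have h2 : psiV v ((α : L) * b) = psiV v (((α : L) - x) * b) * psiV v (x * b) := by
    rw [← psiV_add]; congr 1; ring
  rw [h2] at h1
  have h3 : psiV v (x * b) ≠ 0 := fun e => by
    have := Loc.norm_psiV v (x * b)
    rw [e, mul_zero] at this
    exact zero_ne_one this
  have h4 : (psiV v (((α : L) - x) * b) - 1) * (psiV v (x * b) * W f y a) = 0 := by
    linear_combination -h1
  exact (mul_eq_zero.1 h4).elim (fun e => hψ (sub_eq_zero.1 e)) (mul_ne_zero h3 hne)

variable (hξ : ∀ v ∈ P, v.valuation L (ξ v : L) = exp (cnd v + 2 * m v))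
  (hm : ∀ v ∈ P, 0 < m v) (hχ : ∀ v ∈ P, ChiAt f v (m v) (ξ v : L))

include hf hξ hm hχ in
/-- The Whittaker function on the normalised points takes one value. -/
theorem IsForm.W_std {a : adelGrp L} (ha : IsTorusPt P a) {y : InfPts L} (hne : W f y a ≠ 0) :
    W f y a = W f y (stdPt P ξ) := by
  classical
  suffices key : ∀ T : Finset (HeightOneSpectrum (𝓞 L)), T ⊆ P → ∀ a : adelGrp L, IsTorusPt P a →
      W f y a ≠ 0 → (∀ v ∈ P, v ∉ T → a.1 v = dG (ξ v)) → W f y a = W f y (stdPt P ξ) from
    key P subset_rfl a ha hne fun v hv hv' => absurd hv hv'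
  intro T
  induction T using Finset.induction_on with
  | empty =>
    intro _ a ha _ h3
    congr 1
    refine Subtype.ext (funext fun v => ?_)
    by_cases hv : v ∈ P
    · rw [h3 v hv (Finset.notMem_empty v), stdPt_mem hv]
    · rw [ha.2 v hv, stdPt_notMem hv]
  | insert v T hvT ih =>
    intro hsub a ha hne h3
    have hv : v ∈ P := hsub (Finset.mem_insert_self v T)
    obtain ⟨α, hα⟩ := ha.1 v hv
    have hnear := hf.near_of_W_ne (hχ v hv) hα hne
    have hlt : exp (cnd v + m v) < v.valuation L (ξ v : L) := by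
      rw [hξ v hv, exp_lt_exp]
      have := hm v hv
      omega
    have hαv : v.valuation L (α : L) = v.valuation L (ξ v : L) :=
      Valuation.map_eq_of_sub_lt _ (hnear.trans_lt hlt)
    set u : Lˣ := α⁻¹ * ξ v
    have hu : v.valuation L ((u : L) - 1) ≤ exp (-(m v : ℤ)) := by
      rw [show (u : L) - 1 = ((ξ v : L) - (α : L)) / (α : L) by
        simp only [u, Units.val_mul, Units.val_inv_eq_inv_val]; field_simp, map_div₀, hαv,
        Valuation.map_sub_swap, div_le_iff₀ (by rw [hξ v hv]; exact exp_pos), hξ v hv, ← exp_add]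
      refine hnear.trans (exp_le_exp.2 ?_)
      omega
    set a' := a * atV v (dG u)
    have hW : W f y a' = W f y a := by
      rw [hf.W_chi (hχ v hv) (dG_mem_locKN (hm v hv) hu), chW, rat_dG, mul_zero, psiV_zero,
        one_mul]
    have hv' : a'.1 v = dG (ξ v) := by
      show a.1 v * (atV v (dG u)).1 v = _
      rw [atV_same, hα, ← dG_mul, mul_inv_cancel_left]
    have hw' : ∀ w, w ≠ v → a'.1 w = a.1 w := fun w hw => by
      show a.1 w * (atV v (dG u)).1 w = _
      rw [atV_ne hw, mul_one]
    rw [← hW]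
    refine ih (fun w hw => hsub (Finset.mem_insert_of_mem hw)) a' ⟨fun w hw => ?_, fun w hw => ?_⟩
      (by rwa [hW]) fun w hw hwT => ?_
    · by_cases hwv : w = v
      · subst hwv; exact ⟨_, hv'⟩
      · rw [hw' w hwv]; exact ha.1 w hw
    · rw [hw' w fun e => hw (e ▸ hv)]; exact ha.2 w hw
    · by_cases hwv : w = v
      · subst hwv; exact hv'
      · rw [hw' w hwv]; exact h3 w hw (by simp [hwv, hwT])

include hf hξ hm hχ in
/-- **Uniqueness.** One value determines the form. -/
theorem IsForm.eq_zero_of_std (hr : IsRadial f)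
    (hK : ∀ v ∉ P, FixedAt f v (locK v)) (c : HeightOneSpectrum (𝓞 L) → ℂ)
    (hc : ∀ v ∉ P, heckeT v f = c v • f) (h0 : W f baseY (stdPt P ξ) = 0) : f = 0 :=
  hf.eq_zero_of_pts hr P hK c hc fun _ hb =>
    by_contra fun hne => hne ((hf.W_std hξ hm hχ hb hne).trans h0)

end FermatAgent.LT2.Whit
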